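import Fermat.Agent.CAR.NRM.Main
import Fermat.Agent.CAR.FQ2E.Idx
import Fermat.Agent.CAR.FQ2V.Fam
import Fermat.Agent.DSC.Main

/-!
# CAR / NRM / Inst : the CONCRETE instance of `NRM.Dat`.  Definitions (no sorry).

`A` = a valuation ring of `ℚ̄` over `q`, `I = I_A` its inertia group, `K = ℚ̄^I`.
`F = FN (M' q²)`, `F_K = F^I`, `P1 = π₁^* N₁ = alp ∘ N1`, `P2 = π₂^* N₂ = bet ∘ N2`.
The three valuations: `vo = ` Gauss valuation of `z(Q)`, `vz = ` Gauss valuation of `(w_{q²} z)(Q)`,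
`vm = ` Gauss valuation of the expansion `eM z` at ONE middle cusp (`eM.hom = eMidC M' q ζ c₀`).
-/

set_option autoImplicit false

open ModularCurve

noncomputable section

namespace Fermat.Agent.CAR.NRM.Inst

open Fermat.Agent.S24 Fermat.Agent.S28 Fermat.Agent.GR Fermat.Agent.GR.HeckeField
  Fermat.Agent.TOR.GB Fermat.Agent.GAL Fermat.Agent.GAL.KL Fermat.Agent.GAL.KLC
  Fermat.Agent.TOR.T1 Fermat.Agent.CAR.FQ2E Fermat.Agent.CAR.FQ2V

variable (A : ValuationSubring Qb)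

/-- the inertia group. -/
abbrev IA : Subgroup GQ := A.inertiaSubgroupIn ℚ

/-- `K = ℚ̄^I`. -/
def KK : Subfield Qb := (DSC.EH (IA A)).toSubfield

theorem mem_KK {a : Qb} : a ∈ KK A ↔ ∀ τ ∈ IA A, τ a = a := DSC.mem_EH

/-- `F_K(N)` : the `I`-fixed elements of `FN N`. -/
def FK (N : ℕ) : Subfield (FN N) where
  carrier := {z | ∀ τ ∈ IA A, galF N τ z = z}
  mul_mem' := fun ha hb τ hτ => by rw [map_mul, ha τ hτ, hb τ hτ]
  one_mem' := fun τ _ => map_one _
  add_mem' := fun ha hb τ hτ => by rw [map_add, ha τ hτ, hb τ hτ]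
  zero_mem' := fun τ _ => map_zero _
  neg_mem' := fun ha τ hτ => by rw [map_neg, ha τ hτ]
  inv_mem' := fun _ ha τ hτ => by rw [map_inv₀, ha τ hτ]

theorem mem_FK {N : ℕ} {z : FN N} : z ∈ FK A N ↔ ∀ τ ∈ IA A, galF N τ z = z := Iff.rfl

/-- dictionary with `DSC.FH`. -/
theorem mem_FK_iff {N : ℕ} {z : FN N} :
    z ∈ FK A N ↔ (z : LaurentSeries Qb) ∈ DSC.FH (IA A) N := by
  constructor
  · intro h
    exact ⟨z.2, fun τ hτ => by rw [← coe_galF, h τ hτ]⟩
  · intro h τ hτ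
    exact Subtype.ext (by rw [coe_galF, h.2 τ hτ])

/-- the valuation of the constants. -/
def vL : Valuation Qb (ΓU A) := (vU A).comap cU

theorem vL_apply (a : Qb) : vL A a = vU A (cU a) := rfl

variable (M' q : ℕ) [NeZero M'] [NeZero q]

/-- `P1 = π₁^* ∘ N₁`. -/
def P1 : FN (M' * q * q) →* FN (M' * q * q) :=
  ((alp (M' * q) q : FN (M' * q) →+* FN (M' * q * q)) : FN (M' * q) →* FN (M' * q * q)).comp
    (N1 M' q)

/-- `P2 = π₂^* ∘ N₂`. -/
def P2 : FN (M' * q * q) →* FN (M' * q * q) :=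
  ((bet (M' * q) q : FN (M' * q) →+* FN (M' * q * q)) : FN (M' * q) →* FN (M' * q * q)).comp
    (N2 M' q)

@[simp] theorem P1_apply (z : FN (M' * q * q)) : P1 M' q z = alp (M' * q) q (N1 M' q z) := rfl

@[simp] theorem P2_apply (z : FN (M' * q * q)) : P2 M' q z = bet (M' * q) q (N2 M' q z) := rfl

/-- the expansion at `∞`. -/
abbrev eO : GEmb (FN (M' * q * q)) := eStd (M' * q * q)

/-- the expansion at `0`. -/
abbrev eZ : GEmb (FN (M' * q * q)) := (eStd (M' * q * q)).comp (wqq M' q : _ →ₐ[Qb] _)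

/-- **the concrete datum**; `eM` = the expansion at one middle cusp. -/
def dat (eM : GEmb (FN (M' * q * q))) : Dat Qb (FN (M' * q * q)) (kA A) (ΓU A) where
  vo := vOf A (eO M' q)
  vm := vOf A eM
  vz := vOf A (eZ M' q)
  ρo := rhoOf A (eO M' q)
  ρm := rhoOf A eM
  ρz := rhoOf A (eZ M' q)
  vL := vL A
  KK := KK A
  FK := FK A (M' * q * q)
  P1 := P1 M' q
  P2 := P2 M' q

variable {A M' q}

/-- `Rd3` in terms of `HasRed`. -/
theorem rd3_iff {eM : GEmb (FN (M' * q * q))} {z : FN (M' * q * q)}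
    {a b c : LaurentSeries (kA A)} :
    (dat A M' q eM).Rd3 z a b c ↔ HasRed A (z : LaurentSeries Qb) a ∧ HasRed A (eM.hom z) b ∧
      HasRed A ((wqq M' q z : FN (M' * q * q)) : LaurentSeries Qb) c :=
  and_congr (rd_iff A _) (and_congr (rd_iff A _) (rd_iff A _))

end Fermat.Agent.CAR.NRM.Inst
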