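import Fermat.Agent.CAR.NRM.Inst.Main
import Fermat.Agent.CAR.NRM.Export
import Fermat.Agent.CAR.FQ2C.Main
import Fermat.Agent.CAR.BKP.Conc

/-!
# CAR / NRM / Inst / Bridge : the concrete datum `Inst.dat` IS `NRM.datOf` of the concrete family `FQ2C.vC`, `FQ2C.rhoC`;
`hP1`, `hP2` on the chart `t`; the concrete form of `NRM.exists_chart_data`.
-/

set_option autoImplicit false

open ModularCurve

noncomputable section

namespace Fermat.Agent.CAR.NRM.Inst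

open Fermat.Agent.S24 Fermat.Agent.S28 Fermat.Agent.GR Fermat.Agent.GR.HeckeField
  Fermat.Agent.TOR.GB Fermat.Agent.GAL Fermat.Agent.GAL.KL Fermat.Agent.GAL.KLC
  Fermat.Agent.TOR.T1 Fermat.Agent.CAR.FQ2E Fermat.Agent.CAR.FQ2V Fermat.Agent.CAR.ON
  Fermat.Agent.CAR.BK Fermat.Agent.CAR

variable {A : ValuationSubring Qb} {M' q : ℕ} [NeZero M'] [NeZero q]

/-- the two data agree (definitionally). -/
theorem dat_eq (ζ : Qbˣ) (c₀ : (ZMod q)ˣ) :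
    dat A M' q (FQ2C.eMidG M' q (zpw q ζ c₀)) =
      datOf (FQ2C.vC M' q A ζ) (FQ2C.rhoC M' q A ζ) c₀ (vL A) (KK A) (FK A (M' * q * q))
        (P1 M' q) (P2 M' q) := rfl

/-- all the hypotheses of [NRM] for `datOf` of the concrete family. -/
theorem all_datOf (hq : q.Prime) (hqM : ¬ q ∣ M') (hA : A.LiesOverPrime q) {ζ : Qbˣ}
    (hζ : IsPrimitiveRoot ζ q) (c₀ : (ZMod q)ˣ) :
    (datOf (FQ2C.vC M' q A ζ) (FQ2C.rhoC M' q A ζ) c₀ (vL A) (KK A) (FK A (M' * q * q))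
        (P1 M' q) (P2 M' q)).All q :=
  all hq hqM hA hζ (fun c => FQ2C.eMidG M' q (zpw q ζ c)) (fun _ _ => rfl) c₀

/-- `P1` preserves integrality over `ℚ̄[t]`. -/
theorem isInt_P1 (hM : AdmLevel M') (hq : q.Prime) (hqM : ¬ q ∣ M') (hA : A.LiesOverPrime q)
    (z : FN (M' * q * q)) (h : IsInt Qb (BKP.tC M' q) z) : IsInt Qb (BKP.tC M' q) (P1 M' q z) :=
  BKP.isInt_alp hM hq hqM A hA (BKP.isInt_norm_alp hM hq hqM A hA h)

/-- `P2` preserves integrality over `ℚ̄[t]`. -/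
theorem isInt_P2 (hM : AdmLevel M') (hq : q.Prime) (hqM : ¬ q ∣ M') (hA : A.LiesOverPrime q)
    (z : FN (M' * q * q)) (h : IsInt Qb (BKP.tC M' q) z) : IsInt Qb (BKP.tC M' q) (P2 M' q z) :=
  BKP.isInt_bet hM hq hqM A hA (BKP.isInt_norm_bet hM hq hqM A hA h)

theorem tC_eq : FQ2C.tC M' q = BKP.tC M' q := rfl

/-- **Concrete export of [NRM] for `NS.chart_main`** on the chart `t = FQ2C.tC M' q`, `E = FK A (M' q²)`.
`h ∈ E^×` whose two norms to level `M' q` are `n`-th powers (over `ℚ̄`).  The only hypotheses left: the chart structure `C` ([BK-C]) and the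
incidence `INC` (two different branches through `P` ⇒ all three). -/
theorem exists_chart_dataC [IsAlgClosed (kA A)] (hM : AdmLevel M') (hq : q.Prime) (hqM : ¬ q ∣ M')
    (hA : A.LiesOverPrime q) {ζ : Qbˣ} (hζ : IsPrimitiveRoot ζ q) (c₀ : (ZMod q)ˣ)
    {E₀ : Subfield (FN M')} {u₀ : FN M'} {η : LaurentSeries (kA A)}
    (C : ChartK Qb (rho A M') (FQ2C.rhoC M' q A ζ) (FQ2C.al M' q) (FQ2C.ga M' q) E₀
      (FK A (M' * q * q)) q u₀ (FQ2C.tC M' q) η)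
    {n : ℕ} (hn : 0 < n) (hqn : Nat.Coprime q n)
    (INC : ∀ P : Ideal (Bu Qb (FK A (M' * q * q)) (FQ2C.vC M' q A ζ) (FQ2C.tC M' q)), P.IsMaximal →
      ∀ i j, i ≠ j → pK Qb (FK A (M' * q * q)) (FQ2C.vC M' q A ζ) (FQ2C.tC M' q) c₀ i ≤ P →
      pK Qb (FK A (M' * q * q)) (FQ2C.vC M' q A ζ) (FQ2C.tC M' q) c₀ j ≤ P →
      ∀ l, pK Qb (FK A (M' * q * q)) (FQ2C.vC M' q A ζ) (FQ2C.tC M' q) c₀ l ≤ P)
    {h : FK A (M' * q * q)} (h0 : h ≠ 0)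
    (hy₁ : ∃ y : FN (M' * q), y ^ n = N1 M' q h) (hy₂ : ∃ y : FN (M' * q), y ^ n = N2 M' q h) :
    ∃ a ∈ KK A, a ≠ 0 ∧ ∃ z : FK A (M' * q * q), z ≠ 0 ∧ ∃ w : FK A (M' * q * q),
      (w : FN (M' * q * q)) = (h : FN (M' * q * q)) ^ ((q + 1) * (q - 1)) *
        algebraMap Qb (FN (M' * q * q)) a * (z : FN (M' * q * q)) ^ n ∧
      (∀ i, v3 (FK A (M' * q * q)) (FQ2C.vC M' q A ζ) c₀ i (w - 1) < 1) ∧
      ∃ (ψ : FK A (M' * q * q))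
        (e e' : Idx Unit → Bu Qb (FK A (M' * q * q)) (FQ2C.vC M' q A ζ) (FQ2C.tC M' q)),
        ψ ≠ 0 ∧ (∀ i, e i * e' i = 1) ∧
        (∀ i, v3 (FK A (M' * q * q)) (FQ2C.vC M' q A ζ) c₀ i (ψ - e i) < 1) ∧
        (∀ i, v3 (FK A (M' * q * q)) (FQ2C.vC M' q A ζ) c₀ i
          ((e i : FK A (M' * q * q)) ^ n - 1) < 1) ∧
        ∀ P : Ideal (Bu Qb (FK A (M' * q * q)) (FQ2C.vC M' q A ζ) (FQ2C.tC M' q)), P.IsMaximal →
          ∀ φ ∈ NS.Lam (Bu Qb (FK A (M' * q * q)) (FQ2C.vC M' q A ζ) (FQ2C.tC M' q)) n w, ∀ i j,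
          pK Qb (FK A (M' * q * q)) (FQ2C.vC M' q A ζ) (FQ2C.tC M' q) c₀ i ≤ P →
          pK Qb (FK A (M' * q * q)) (FQ2C.vC M' q A ζ) (FQ2C.tC M' q) c₀ j ≤ P →
          ∀ b b' : Bu Qb (FK A (M' * q * q)) (FQ2C.vC M' q A ζ) (FQ2C.tC M' q), b ∉ P →
          v3 (FK A (M' * q * q)) (FQ2C.vC M' q A ζ) c₀ i (φ - b) < 1 →
          v3 (FK A (M' * q * q)) (FQ2C.vC M' q A ζ) c₀ j (φ - b') < 1 →
          e j * b ^ (q ^ 2 - 1) - e i * b' ^ (q ^ 2 - 1) ∈ P := by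
  have h0' : (h : FN (M' * q * q)) ≠ 0 := fun hh => h0 (Subtype.ext hh)
  exact exists_chart_data (FQ2C.lvl2 A ζ hq hqM hA hζ) C c₀ (all_datOf hq hqM hA hζ c₀) hq.two_le hn
    hqn (isInt_P1 hM hq hqM hA) (isInt_P2 hM hq hqM hA) INC h0
    (np_P1 hq hqM (FQ2C.eMidG M' q (zpw q ζ c₀)) hn h.2 h0' hy₁)
    (np_P2 hq hqM (FQ2C.eMidG M' q (zpw q ζ c₀)) hn h.2 h0' hy₂)

end Fermat.Agent.CAR.NRM.Inst
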