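import Fermat.Agent.CAR.NRM.Inst.Defs
import Fermat.Agent.TOR.GBB.ToricFormal
import Fermat.Agent.ORD.P2.Inertia

/-!
# CAR / NRM / Inst / Series (package NRM-I1): the Gauss valuation `vOf` under `galS σ` (σ ∈ I), `twist ξ`, `qExpand d`, `NmL q`, products

GENERAL PRINCIPLE (`vOf_eq_of_map`).  Let `T` be a multiplicative map on series, `d ≥ 1`, with
(1) `T (C a * x) = C a' * T x` with `vL a' = vL a ^ d`, (2) `T` maps series with a nonzero reduction to series with a nonzero reduction.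
If `e'.hom z' = T (e.hom z)` then `vOf e' z' = vOf e z ^ d`.
Proof: `z = 0`: both sides vanish (`T 0 = 0` is hypothesis (0); ring homs of fields are injective).  `z ≠ 0`: `FQ2V.exists_hasRed_C_mul` gives `c ≠ 0`, `φ ≠ 0`,
`HasRed A (C c * e.hom z) φ`; so `vOf e (algebraMap c * z) = 1` (`vOf_eq_one_of_hasRed`, `e.const`), `vOf e' (algebraMap c' * z') = 1`; `vOf_algebraMap`.
-/

set_option autoImplicit false

open ModularCurve

noncomputable section

namespace Fermat.Agent.CAR.NRM.Inst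

open Fermat.Agent.S24 Fermat.Agent.S28 Fermat.Agent.GR Fermat.Agent.GR.HeckeField
  Fermat.Agent.TOR.GB Fermat.Agent.GAL Fermat.Agent.GAL.KL Fermat.Agent.GAL.KLC
  Fermat.Agent.TOR.T1 Fermat.Agent.CAR.FQ2E Fermat.Agent.CAR.FQ2V

variable {A : ValuationSubring Qb} {E E' : Type*} [Field E] [Algebra Qb E] [Field E'] [Algebra Qb E']

/-- the general principle. -/
theorem vOf_eq_of_map (T : LaurentSeries Qb → LaurentSeries Qb) (d : ℕ) (h0 : T 0 = 0)
    (hc : ∀ (a : Qb) (x : LaurentSeries Qb), a ≠ 0 → ∃ a' : Qb, T (HahnSeries.C a * x) = HahnSeries.C a' * T x ∧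
      vL A a' = vL A a ^ d)
    (hr : ∀ (x : LaurentSeries Qb) (φ : LaurentSeries (kA A)), HasRed A x φ → φ ≠ 0 →
      ∃ φ', φ' ≠ 0 ∧ HasRed A (T x) φ')
    (hd : d ≠ 0) {e : GEmb E} {e' : GEmb E'} {z : E} {z' : E'} (h : e'.hom z' = T (e.hom z)) :
    vOf A e' z' = vOf A e z ^ d := by
  by_cases hz : z = 0
  · subst hz
    rw [map_zero, h0] at h
    have hz' : z' = 0 := (map_eq_zero e'.hom).1 h
    rw [hz', map_zero, map_zero, zero_pow hd]
  · have hz0 : e.hom z ≠ 0 := (map_ne_zero e.hom).2 hz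
    obtain ⟨c, hc0, φ, hφ, hred⟩ := exists_hasRed_C_mul A (e.mem z) hz0
    obtain ⟨c', hT, hv⟩ := hc c (e.hom z) hc0
    obtain ⟨φ', hφ', hred'⟩ := hr _ _ hred hφ
    have h1 : vOf A e (algebraMap Qb E c * z) = 1 :=
      vOf_eq_one_of_hasRed A e (by rw [map_mul, e.const]; exact hred) hφ
    have h2 : vOf A e' (algebraMap Qb E' c' * z') = 1 :=
      vOf_eq_one_of_hasRed A e' (by rw [map_mul, e'.const, h, ← hT]; exact hred') hφ'
    rw [map_mul, vOf_algebraMap] at h1 h2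
    rw [vL_apply, vL_apply] at hv
    rw [hv] at h2
    have h3 : (vU A (cU c) * vOf A e z) ^ d = 1 := by rw [h1, one_pow]
    rw [mul_pow] at h3
    have hne : vU A (cU c) ^ d ≠ 0 := left_ne_zero_of_mul_eq_one h3
    exact mul_left_cancel₀ hne (h2.trans h3.symm)

theorem Series_vL_le_one_iff {a : Qb} : vL A a ≤ 1 ↔ a ∈ A := by
  rw [vL_apply, vU_le_one_iff]
  constructor
  · rintro ⟨zb, hzb⟩
    exact ValThm_mem_of_hasRed_C A hzb
  · intro ha
    exact ⟨_, hasRed_C A ⟨a, ha⟩⟩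

theorem Series_vL_eq_of_div_mem {a b : Qb} (ha : a ≠ 0) (hb : b ≠ 0) (h1 : a / b ∈ A)
    (h2 : b / a ∈ A) : vL A a = vL A b := by
  have hva : vL A a ≠ 0 := (Valuation.ne_zero_iff _).2 ha
  have hvb : vL A b ≠ 0 := (Valuation.ne_zero_iff _).2 hb
  rw [← Series_vL_le_one_iff, map_div₀, div_le_one₀ (zero_lt_iff.2 hvb)] at h1
  rw [← Series_vL_le_one_iff, map_div₀, div_le_one₀ (zero_lt_iff.2 hva)] at h2
  exact le_antisymm h1 h2

/-- `|a| = |b|` for `A.valuation` implies the same for `vL`. -/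
theorem vL_eq_of_valuation_eq {a b : Qb} (h : A.valuation a = A.valuation b) : vL A a = vL A b := by
  by_cases hb : b = 0
  · subst hb
    rw [map_zero, map_eq_zero] at h
    rw [h]
  · have hvb : A.valuation b ≠ 0 := (Valuation.ne_zero_iff _).2 hb
    have ha : a ≠ 0 := (Valuation.ne_zero_iff A.valuation).1 (h ▸ hvb)
    refine Series_vL_eq_of_div_mem ha hb ?_ ?_
    · rw [← A.valuation_le_one_iff, map_div₀, h, div_self hvb]
    · rw [← A.valuation_le_one_iff, map_div₀, h, div_self hvb]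

theorem vL_le_one_iff {a : Qb} : vL A a ≤ 1 ↔ a ∈ A := Series_vL_le_one_iff

/-- the inertia group (even the decomposition group) preserves `|.|`
(`DSC.valuation_map_of_mem_inertia` is a black box of DSC/FinIndex.lean; you may use it). -/
theorem vL_map_inertia {σ : GQ} (hσ : σ ∈ IA A) (a : Qb) : vL A (σ a) = vL A a := by
  obtain ⟨hd, -⟩ := red_decompHom_of_inertia hσ
  by_cases ha : a = 0
  · rw [ha, map_zero]
  · have hσa : σ a ≠ 0 := (map_ne_zero σ).2 ha
    refine Series_vL_eq_of_div_mem hσa ha (Fermat.Agent.TOR.GBB.decomp_div_mem hd ha) ?_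
    have := Fermat.Agent.TOR.GBB.decomp_div_mem (inv_mem hd) hσa
    simpa using this

/-- inertia does not change the reductions (`ORD.P2.hasRed_map_inertia`). -/
theorem hasRed_galS_inertia {σ : GQ} (hσ : σ ∈ IA A) {x : LaurentSeries Qb}
    {φ : LaurentSeries (kA A)} (h : HasRed A x φ) : HasRed A (galS σ x) φ :=
  Fermat.Agent.ORD.P2.hasRed_map_inertia hσ h

theorem vOf_eq_of_galS {σ : GQ} (hσ : σ ∈ IA A) {e : GEmb E} {e' : GEmb E'} {z : E} {z' : E'}
    (h : e'.hom z' = galS σ (e.hom z)) : vOf A e' z' = vOf A e z := by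
  have := vOf_eq_of_map (A := A) (galS σ) 1 (map_zero _)
    (fun a x _ => ⟨σ a, Fermat.Agent.TOR.GBB.galS_C_mul σ a x, by rw [pow_one, vL_map_inertia hσ]⟩)
    (fun x φ hx hφ => ⟨φ, hφ, hasRed_galS_inertia hσ hx⟩) one_ne_zero h
  rwa [pow_one] at this

theorem vOf_eq_of_twist {q : ℕ} (hq : q.Prime) (hA : A.LiesOverPrime q) {ξ : Qbˣ} (hξ : ξ ^ q = 1)
    {e : GEmb E} {e' : GEmb E'} {z : E} {z' : E'} (h : e'.hom z' = twist ξ (e.hom z)) :
    vOf A e' z' = vOf A e z := by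
  have := vOf_eq_of_map (A := A) (twist ξ) 1 (map_zero _)
    (fun a x _ => ⟨a, by rw [map_mul, tw_C], by rw [pow_one]⟩)
    (fun x φ hx hφ => ⟨φ, hφ, hasRed_twist hq hA ξ hξ hx⟩) one_ne_zero h
  rwa [pow_one] at this

theorem vOf_eq_of_qExpand (d : ℕ) [NeZero d] {e : GEmb E} {e' : GEmb E'} {z : E} {z' : E'}
    (h : e'.hom z' = qExpand Qb d (e.hom z)) : vOf A e' z' = vOf A e z := by
  have := vOf_eq_of_map (A := A) (qExpand Qb d) 1 (map_zero _)
    (fun a x _ => ⟨a, Fermat.Agent.TOR.GBB.qExpand_C_mul a x, by rw [pow_one]⟩)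
    (fun x φ hx hφ => ⟨_, Fermat.Agent.TOR.GBB.qExpand_ne_zero' hφ, hasRed_qExpand' d hx⟩)
    one_ne_zero h
  rwa [pow_one] at this

theorem Series_hasRed_qExpand_NmL {q : ℕ} [NeZero q] (hq : q.Prime) (hA : A.LiesOverPrime q)
    {x : LaurentSeries Qb} {φ : LaurentSeries (kA A)} (h : HasRed A x φ) :
    HasRed A (qExpand Qb q (NmL Qb q x)) (φ ^ q) := by
  have : CharP (kA A) q := charP_residueField hq hA
  have : ExpChar (kA A) q := ExpChar.prime hq
  have h1 := hasRed_qExpand' q (Fermat.Agent.TOR.GBB.hasRed_NmL hq hA h)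
  rwa [Fermat.Agent.TOR.GBB.qExpand_frob] at h1

/-- (`TOR.GBB.hasRed_NmL`, `NmL_C_mul`, `hasRed_qExpand'`.) -/
theorem vOf_eq_of_NmL {q : ℕ} [NeZero q] (hq : q.Prime) (hA : A.LiesOverPrime q) {e : GEmb E}
    {e' : GEmb E'} {z : E} {z' : E'} (h : e'.hom z' = qExpand Qb q (NmL Qb q (e.hom z))) :
    vOf A e' z' = vOf A e z ^ q := by
  have h0 : NmL Qb q (0 : LaurentSeries Qb) = 0 := by
    have h1 := NmL_qExpand (R := Qb) q (0 : LaurentSeries Qb)
    rw [map_zero, zero_pow (NeZero.ne q)] at h1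
    exact h1
  exact vOf_eq_of_map (A := A) (fun x => qExpand Qb q (NmL Qb q x)) q
    (by show qExpand Qb q (NmL Qb q 0) = 0; rw [h0, map_zero])
    (fun a x _ => ⟨a ^ q, by
      show qExpand Qb q (NmL Qb q (HahnSeries.C a * x)) = _
      rw [Fermat.Agent.TOR.GBB.NmL_C_mul, Fermat.Agent.TOR.GBB.qExpand_C_mul], map_pow _ _ _⟩)
    (fun x φ hx hφ => ⟨φ ^ q, pow_ne_zero q hφ, Series_hasRed_qExpand_NmL hq hA hx⟩)
    hq.ne_zero h

/-- reduction of `x ↦ (N x)(Q^q)`: it is `φ^q` (`hasRed_NmL`, `hasRed_qExpand'`, `GR.pow_char_eq_qExpand`). -/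
theorem hasRed_qExpand_NmL {q : ℕ} [NeZero q] (hq : q.Prime) (hA : A.LiesOverPrime q)
    {x : LaurentSeries Qb} {φ : LaurentSeries (kA A)} (h : HasRed A x φ) :
    HasRed A (qExpand Qb q (NmL Qb q x)) (φ ^ q) :=
  Series_hasRed_qExpand_NmL hq hA h

/-- multiplicativity, in the form used in the tables. -/
theorem vOf_eq_mul_prod {ι : Type*} (s : Finset ι) {e e₀ : GEmb E} {z z₀ : E} (e' : ι → GEmb E)
    (z' : ι → E) (h : e.hom z = e₀.hom z₀ * ∏ i ∈ s, (e' i).hom (z' i)) :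
    vOf A e z = vOf A e₀ z₀ * ∏ i ∈ s, vOf A (e' i) (z' i) := by
  have h1 : e.lift z = e₀.lift z₀ * ∏ i ∈ s, (e' i).lift (z' i) := by
    apply Subtype.ext
    rw [GEmb.coe_lift, h]
    push_cast
    rfl
  simp only [vOf_apply]
  rw [h1, map_mul, map_prod]

end Fermat.Agent.CAR.NRM.Inst
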