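import Fermat.Agent.CAR.NRM.Inst.OpsK
import Fermat.Agent.CAR.NRM.Inst.Series

/-!
# CAR / NRM / Inst / Base (package NRM-I11): the basic axioms

`isRed_of`, `vOf_algebraMap`, `algebraMap_mem_FK`; `constR`: `vL a ≤ 1 → a ∈ A` (`vL_le_one_iff`), `GR.hasRed_C A ⟨a, _⟩ : HasRed A (C a) (C (residue a))`, `e.const`, `rd3_iff`
(`wqq` is a `Qb`-algebra map: `AlgEquiv.commutes`);   `constK`: `DSC.exists_lift_EH_inertia` (`CRed A c cb` = `∃ h : c ∈ A, residue ⟨c, h⟩ = cb`).
-/

set_option autoImplicit false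

open ModularCurve

noncomputable section

namespace Fermat.Agent.CAR.NRM.Inst

open Fermat.Agent.S24 Fermat.Agent.S28 Fermat.Agent.GR Fermat.Agent.GR.HeckeField
  Fermat.Agent.TOR.GB Fermat.Agent.GAL Fermat.Agent.GAL.KL Fermat.Agent.GAL.KLC
  Fermat.Agent.TOR.T1 Fermat.Agent.CAR.FQ2E Fermat.Agent.CAR.FQ2V

variable {A : ValuationSubring Qb} {M' q : ℕ} [NeZero M'] [NeZero q]

/-- a constant of `A` has the same reduction on the three branches. -/
theorem Base_rd3_const (eM : GEmb (FN (M' * q * q))) {a : Qb} (ha : a ∈ A) :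
    (dat A M' q eM).Rd3 (algebraMap Qb (FN (M' * q * q)) a)
      (HahnSeries.C (IsLocalRing.residue A ⟨a, ha⟩)) (HahnSeries.C (IsLocalRing.residue A ⟨a, ha⟩))
      (HahnSeries.C (IsLocalRing.residue A ⟨a, ha⟩)) := by
  have h := KLC.hasRed_C (A := A) ⟨a, ha⟩
  rw [rd3_iff]
  refine ⟨?_, ?_, ?_⟩
  · have h1 : ((algebraMap Qb (FN (M' * q * q)) a : FN (M' * q * q)) : LaurentSeries Qb) =
        HahnSeries.C a := (eO M' q).const a
    rw [h1]
    exact h
  · rw [eM.const]
    exact h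
  · rw [AlgEquiv.commutes]
    have h1 : ((algebraMap Qb (FN (M' * q * q)) a : FN (M' * q * q)) : LaurentSeries Qb) =
        HahnSeries.C a := (eO M' q).const a
    rw [h1]
    exact h

theorem base (hq : q.Prime) (hA : A.LiesOverPrime q) (eM : GEmb (FN (M' * q * q))) :
    (dat A M' q eM).Base where
  redo := isRed_of A _
  redm := isRed_of A _
  redz := isRed_of A _
  vLo a := vOf_algebraMap A _ a
  vLm a := vOf_algebraMap A _ a
  vLz a := vOf_algebraMap A _ a
  KF a ha := algebraMap_mem_FK _ ha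
  constR a ha := ⟨_, Base_rd3_const eM (vL_le_one_iff.mp ha)⟩
  constK c := by
    obtain ⟨a, ha, ha', rfl⟩ := DSC.exists_lift_EH_inertia hq hA c
    exact ⟨a, ha, Base_rd3_const eM ha'⟩

end Fermat.Agent.CAR.NRM.Inst
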