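import Fermat.Agent.CAR.NRM.Inst.Defs

/-!
# CAR / NRM / Inst / OpsK (package NRM-I4): `K`-rationality of all the operators; norms of constants
(`galF_alp`, `galF_bet`, `N1_galF`, `N2_galF`, `wqq_galF`, `wq_galF`, `coe_galF`, `DSC.galS_C`, `N1_alp`, `N2_bet`, `AlgHom.commutes`.)
-/

set_option autoImplicit false

open ModularCurve

noncomputable section

namespace Fermat.Agent.CAR.NRM.Inst

open Fermat.Agent.S24 Fermat.Agent.S28 Fermat.Agent.GR Fermat.Agent.GR.HeckeField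
  Fermat.Agent.TOR.GB Fermat.Agent.GAL Fermat.Agent.GAL.KL Fermat.Agent.GAL.KLC
  Fermat.Agent.TOR.T1 Fermat.Agent.CAR.FQ2E Fermat.Agent.CAR.FQ2V

variable {A : ValuationSubring Qb} {M' q : ℕ} [NeZero M'] [NeZero q]

theorem galF_algebraMap (N : ℕ) (τ : GQ) (a : Qb) :
    galF N τ (algebraMap Qb (FN N) a) = algebraMap Qb (FN N) (τ a) := by
  apply Subtype.ext
  rw [coe_galF]
  have h1 : ∀ b : Qb, ((algebraMap Qb (FN N) b : FN N) : LaurentSeries Qb) = HahnSeries.C b :=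
    fun b => ValThm_coe_algebraMap N b
  rw [h1, h1]
  exact DSC.galS_C τ a

theorem algebraMap_mem_FK (N : ℕ) {a : Qb} (ha : a ∈ KK A) : algebraMap Qb (FN N) a ∈ FK A N := by
  intro τ hτ
  rw [galF_algebraMap, (mem_KK A).1 ha τ hτ]

theorem alp_mem_FK (M ℓ : ℕ) [NeZero M] [NeZero ℓ] {y : FN M} (hy : y ∈ FK A M) :
    alp M ℓ y ∈ FK A (M * ℓ) := by
  intro τ hτ
  rw [galF_alp, hy τ hτ]

theorem bet_mem_FK (M ℓ : ℕ) [NeZero M] [NeZero ℓ] {y : FN M} (hy : y ∈ FK A M) :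
    bet M ℓ y ∈ FK A (M * ℓ) := by
  intro τ hτ
  rw [galF_bet, hy τ hτ]

theorem N1_mem_FK (hq : q.Prime) (hqM : ¬ q ∣ M') {z : FN (M' * q * q)}
    (hz : z ∈ FK A (M' * q * q)) : N1 M' q z ∈ FK A (M' * q) := by
  intro τ hτ
  rw [← N1_galF hq hqM, hz τ hτ]

theorem N2_mem_FK (hq : q.Prime) (hqM : ¬ q ∣ M') {z : FN (M' * q * q)}
    (hz : z ∈ FK A (M' * q * q)) : N2 M' q z ∈ FK A (M' * q) := by
  intro τ hτ
  rw [← N2_galF hq hqM, hz τ hτ]

theorem wqq_mem_FK (hq : q.Prime) (hqM : ¬ q ∣ M') {z : FN (M' * q * q)}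
    (hz : z ∈ FK A (M' * q * q)) : wqq M' q z ∈ FK A (M' * q * q) := by
  intro τ hτ
  rw [← wqq_galF hq hqM, hz τ hτ]

theorem P1_mem_FK (hq : q.Prime) (hqM : ¬ q ∣ M') {z : FN (M' * q * q)}
    (hz : z ∈ FK A (M' * q * q)) : P1 M' q z ∈ FK A (M' * q * q) := by
  rw [P1_apply]
  exact alp_mem_FK (M' * q) q (N1_mem_FK hq hqM hz)

theorem P2_mem_FK (hq : q.Prime) (hqM : ¬ q ∣ M') {z : FN (M' * q * q)}
    (hz : z ∈ FK A (M' * q * q)) : P2 M' q z ∈ FK A (M' * q * q) := by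
  rw [P2_apply]
  exact bet_mem_FK (M' * q) q (N2_mem_FK hq hqM hz)

theorem P1_algebraMap (hq : q.Prime) (hqM : ¬ q ∣ M') (a : Qb) :
    P1 M' q (algebraMap Qb (FN (M' * q * q)) a) = algebraMap Qb (FN (M' * q * q)) a ^ q := by
  have h : algebraMap Qb (FN (M' * q * q)) a = alp (M' * q) q (algebraMap Qb (FN (M' * q)) a) :=
    ((alp (M' * q) q).commutes a).symm
  rw [P1_apply, h, N1_alp hq hqM, map_pow]

theorem P2_algebraMap (hq : q.Prime) (hqM : ¬ q ∣ M') (a : Qb) :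
    P2 M' q (algebraMap Qb (FN (M' * q * q)) a) = algebraMap Qb (FN (M' * q * q)) a ^ q := by
  have h : algebraMap Qb (FN (M' * q * q)) a = bet (M' * q) q (algebraMap Qb (FN (M' * q)) a) :=
    ((bet (M' * q) q).commutes a).symm
  rw [P2_apply, h, N2_bet hq hqM, map_pow]

/-- `j(Q)` is rational. -/
theorem JJ_mem_FK (N : ℕ) : JJ N ∈ FK A N := by
  intro τ _
  apply Subtype.ext
  rw [coe_galF]
  show galS τ (coeffEmb Qb (qExpand ℚ 1 jq)) = coeffEmb Qb (qExpand ℚ 1 jq)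
  ext k
  rw [DSC.galS_coeff, coeffEmb_coeff]
  exact τ.commutes _

end Fermat.Agent.CAR.NRM.Inst
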