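import Fermat.Agent.CAR.NRM.Inst.OpsV
import Fermat.Agent.CAR.NRM.Inst.OpsK

/-!
# CAR / NRM / Inst / Disc (package NRM-I7): discreteness on `K` and on `F_K`

* `dK` : `DSC.value_of_fixed_inertia` + `vL_eq_of_valuation_eq` (`A.valuation a = A.valuation (q^e)`).
* `dO` : `(DSC.isUnif_p A hq hA).exists_decomp` applied to `(z : LaurentSeries Qb) ∈ DSC.FH (IA A) N` (`mem_FK_iff`): `HasRed A (z / C (q^j)) φ`, `φ ≠ 0`,
  so `vOf (z / algebraMap (q^j)) = 1` (`vOf_eq_one_of_hasRed`), `vOf_algebraMap`.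
* `dz` : `dO` for `wqq z` (`wqq_mem_FK`).
* `dm` : FORMAL: `vm z^(q-1) = vo (P1 z) / vo z` (`vP1o`), `P1 z ∈ F_K`, `P1 z ≠ 0`, `dO` twice.
-/

set_option autoImplicit false
set_option linter.unusedSectionVars false

open ModularCurve

noncomputable section

namespace Fermat.Agent.CAR.NRM.Inst

open Fermat.Agent.S24 Fermat.Agent.S28 Fermat.Agent.GR Fermat.Agent.GR.HeckeField
  Fermat.Agent.TOR.GB Fermat.Agent.GAL Fermat.Agent.GAL.KL Fermat.Agent.GAL.KLC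
  Fermat.Agent.TOR.T1 Fermat.Agent.CAR.FQ2E Fermat.Agent.CAR.FQ2V

variable {A : ValuationSubring Qb} {M' q : ℕ} [NeZero M'] [NeZero q]

theorem vL_q_lt (hA : A.LiesOverPrime q) : vL A (q : Qb) < 1 := by
  rw [vL_apply, map_natCast]
  exact vU_prime_lt_one A hA

theorem vL_q_ne (hq : q.Prime) : vL A (q : Qb) ≠ 0 :=
  (Valuation.ne_zero_iff _).2 (Nat.cast_ne_zero.2 hq.ne_zero)

theorem dK (hq : q.Prime) (hA : A.LiesOverPrime q) {a : Qb} (ha : a ∈ KK A) (ha0 : a ≠ 0) :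
    ∃ e : ℤ, vL A a = vL A (q : Qb) ^ e := by
  obtain ⟨j, hj⟩ := DSC.value_of_fixed_inertia A hq hA (DSC.mem_EH.2 ((mem_KK A).1 ha)) ha0
  refine ⟨j, ?_⟩
  rw [← map_zpow₀] at hj
  rw [vL_eq_of_valuation_eq hj, map_zpow₀]

/-- discreteness of the Gauss valuation at `∞`, any level. -/
theorem dO (hq : q.Prime) (hA : A.LiesOverPrime q) (N : ℕ) {z : FN N} (hz : z ∈ FK A N)
    (hz0 : z ≠ 0) : ∃ e : ℤ, vOf A (eStd N) z = vL A (q : Qb) ^ e := by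
  have hz' : (z : LaurentSeries Qb) ≠ 0 := fun h => hz0 (Subtype.ext h)
  obtain ⟨j, φ, hφ, hred⟩ := (DSC.isUnif_p A hq hA).exists_decomp ((mem_FK_iff A).1 hz) hz'
  refine ⟨j, ?_⟩
  have h1 : (eStd N).hom (z / algebraMap Qb (FN N) ((q : Qb) ^ j))
      = (z : LaurentSeries Qb) / HahnSeries.C ((q : Qb) ^ j) := by
    rw [map_div₀, (eStd N).const, eStd_hom_apply]
  have h2 : vOf A (eStd N) (z / algebraMap Qb (FN N) ((q : Qb) ^ j)) = 1 :=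
    vOf_eq_one_of_hasRed A (eStd N) (zb := φ) (by rw [h1]; exact hred) hφ
  have hq0 : vL A ((q : Qb) ^ j) ≠ 0 :=
    (Valuation.ne_zero_iff _).2 (zpow_ne_zero _ (Nat.cast_ne_zero.2 hq.ne_zero))
  rw [map_div₀, vOf_algebraMap, ← vL_apply, div_eq_one_iff_eq hq0, map_zpow₀] at h2
  exact h2

theorem dz (hq : q.Prime) (hqM : ¬ q ∣ M') (hA : A.LiesOverPrime q) {z : FN (M' * q * q)}
    (hz : z ∈ FK A (M' * q * q)) (hz0 : z ≠ 0) :
    ∃ e : ℤ, vOf A (eZ M' q) z = vL A (q : Qb) ^ e := by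
  have h0 : wqq M' q z ≠ 0 := (_root_.map_ne_zero _).2 hz0
  exact dO hq hA (M' * q * q) (wqq_mem_FK hq hqM hz) h0

theorem dm (hq : q.Prime) (hqM : ¬ q ∣ M') (hA : A.LiesOverPrime q) {ζ : Qbˣ}
    (hζ : IsPrimitiveRoot ζ q) (eMs : (ZMod q)ˣ → GEmb (FN (M' * q * q)))
    (heM : ∀ c z, (eMs c).hom z = eMidC M' q ζ c z) (c₀ : (ZMod q)ˣ) {z : FN (M' * q * q)}
    (hz : z ∈ FK A (M' * q * q)) (hz0 : z ≠ 0) :
    ∃ e : ℤ, vOf A (eMs c₀) z ^ (q - 1) = vL A (q : Qb) ^ e := by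
  have hP0 : P1 M' q z ≠ 0 := ((isUnit_iff_ne_zero.2 hz0).map (P1 M' q)).ne_zero
  obtain ⟨e1, he1⟩ := dO hq hA (M' * q * q) (P1_mem_FK hq hqM hz) hP0
  obtain ⟨e0, he0⟩ := dO hq hA (M' * q * q) hz hz0
  have h := vP1o hq hqM hA hζ eMs heM c₀ hz
  rw [he1, he0] at h
  refine ⟨e1 - e0, ?_⟩
  have hne := vL_q_ne (A := A) hq
  rw [zpow_sub₀ hne, h]
  exact (mul_div_cancel_left₀ _ (zpow_ne_zero e0 hne)).symm

end Fermat.Agent.CAR.NRM.Inst
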