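import Fermat.Agent.CAR.NRM.Inst.Defs

/-!
# CAR / NRM / Inst / EMG (package NRM-I0): the middle expansions take values in `GField`

`eMid M' q ξ` is either the coercion (junk cases; `(eStd _).mem`) or characterised by `eMid_alp`, `eMid_bet`.  Every `z` is a quotient of polynomials in the generators
`genX (M' * q) q` (`TOR.GB.genX_generates (M' * q) q hq`), which are of the form `alp y`, `bet y`; their images are `y` and `twist ξ (wq y)`, in `GField` by
`(eStd _).mem` and `FQ2V.twist_mem_GField`.  Use `GEmb.ofGen` (its `mem` field) or repeat its proof.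
-/

set_option autoImplicit false

open ModularCurve

noncomputable section

namespace Fermat.Agent.CAR.NRM.Inst

open Fermat.Agent.S24 Fermat.Agent.S28 Fermat.Agent.GR Fermat.Agent.GR.HeckeField
  Fermat.Agent.TOR.GB Fermat.Agent.GAL Fermat.Agent.GAL.KL Fermat.Agent.GAL.KLC
  Fermat.Agent.TOR.T1 Fermat.Agent.CAR.FQ2E Fermat.Agent.CAR.FQ2V

variable (M' q : ℕ) [NeZero M'] [NeZero q]

omit [NeZero M'] [NeZero q] in
theorem EMG_coe_mem_GField (N : ℕ) (z : FN N) : (z : LaurentSeries Qb) ∈ GField Qb :=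
  (eStd N).mem z

theorem eMid_mem_GField (ξ : Qbˣ) (z : FN (M' * q * q)) : eMid M' q ξ z ∈ GField Qb := by
  by_cases h : (q.Prime ∧ ¬ q ∣ M') ∧ (ξ ^ q = 1 ∧ ξ ≠ 1)
  · obtain ⟨⟨hq, hqM⟩, hξ, hξ1⟩ := h
    have hc : ∀ a : Qb, eMid M' q ξ (algebraMap Qb (FN (M' * q * q)) a) = HahnSeries.C a := by
      intro a
      rw [eMid_algebraMap]
      exact algebraMap_eq_C a
    refine (GEmb.ofGen (genX (M' * q) q) (genX_generates (M' * q) q hq) (eMid M' q ξ) hc ?_).mem z
    rintro ⟨p, _ | _⟩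
    · show eMid M' q ξ (alp (M' * q) q (Fermat.Agent.S18.frickeX (M' * q) p)) ∈ _
      rw [eMid_alp]
      exact EMG_coe_mem_GField _ _
    · show eMid M' q ξ (bet (M' * q) q (Fermat.Agent.S18.frickeX (M' * q) p)) ∈ _
      rw [eMid_bet hq hqM hξ hξ1]
      exact twist_mem_GField ξ hq.ne_zero hξ (EMG_coe_mem_GField _ _)
  · rw [eMid, dif_neg h]
    exact EMG_coe_mem_GField _ z

/-- the middle expansion as a `GEmb`. -/
def eMG (ζ : Qbˣ) (c : (ZMod q)ˣ) : GEmb (FN (M' * q * q)) where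
  hom := eMidC M' q ζ c
  const := fun a => by rw [eMidC_algebraMap]; exact algebraMap_eq_C a
  mem := fun z => eMid_mem_GField M' q _ z

@[simp] theorem eMG_hom (ζ : Qbˣ) (c : (ZMod q)ˣ) (z : FN (M' * q * q)) :
    (eMG M' q ζ c).hom z = eMidC M' q ζ c z := rfl

end Fermat.Agent.CAR.NRM.Inst
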