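import Fermat.Agent.CAR.NRM.Inst.JRed

/-!
# CAR / NRM / Inst / Idem (package NRM-I10): approximate idempotents of `F_K`

With `J = jb` and the table of JRed.lean (`∞`, mid, `0`):
* `a  := j1 - j0^q`      reduces to `(0, 0, J^q - J^(q³))`,     `c' := j0 - j2^(q²)` reduces to `(J - J^(q⁴), J - J^(q²), 0)`;   `e_z := a / (a + c')  ≡ (0, 0, 1)`.
* `c  := j1 - j2^q`      reduces to `(J^q - J^(q³), 0, 0)`,     `a' := j2 - j0^(q²)` reduces to `(0, J - J^(q²), J - J^(q⁴))`;   `e_o := c / (c + a')  ≡ (1, 0, 0)`.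
* `e_m := 1 - e_o - e_z ≡ (0, 1, 0)`.
(`Dat.Rd3` API in NRM/Basic.lean: add `Rd3.sub`, `Rd3.add` if needed via `Rd.sub`, `Rd.add`; `Rd.div`; `jb_pow_ne`; `rd_zero_iff`, `Rd.sub_lt`; `isRed_of`, `arch_of`.)
-/

set_option autoImplicit false

open ModularCurve

noncomputable section

namespace Fermat.Agent.CAR.NRM.Inst

open Fermat.Agent.S24 Fermat.Agent.S28 Fermat.Agent.GR Fermat.Agent.GR.HeckeField
  Fermat.Agent.TOR.GB Fermat.Agent.GAL Fermat.Agent.GAL.KL Fermat.Agent.GAL.KLC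
  Fermat.Agent.TOR.T1 Fermat.Agent.CAR.FQ2E Fermat.Agent.CAR.FQ2V

variable {A : ValuationSubring Qb} {M' q : ℕ} [NeZero M'] [NeZero q]

/-- the abstract computation. -/
theorem Idem_abs {L F k Γ₀ : Type*} [Field L] [Field F] [Algebra L F] [Field k]
    [LinearOrderedCommGroupWithZero Γ₀] (D : Dat L F k Γ₀)
    (ro : IsRed L D.vo D.ρo) (rm : IsRed L D.vm D.ρm) (rz : IsRed L D.vz D.ρz)
    (ao : Arch D.vo) (am : Arch D.vm) (az : Arch D.vz)
    {J : LaurentSeries k} (hJ : ∀ a b : ℕ, a ≠ b → J ^ a ≠ J ^ b) {q : ℕ} (hq : 2 ≤ q)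
    {j0 j1 j2 : F} (h0 : j0 ∈ D.FK) (h1 : j1 ∈ D.FK) (h2 : j2 ∈ D.FK)
    (r0 : D.Rd3 j0 J J (J ^ (q ^ 2))) (r1 : D.Rd3 j1 (J ^ q) (J ^ q) (J ^ q))
    (r2 : D.Rd3 j2 (J ^ (q ^ 2)) J J) : D.Idem := by
  -- numerics
  have hq1 : 1 < q := hq
  have e14 : (1 : ℕ) ≠ q ^ 2 * q ^ 2 := by
    have : 1 < q ^ 2 * q ^ 2 := by nlinarith [Nat.one_lt_pow (n := 2) two_ne_zero hq1]
    omega
  have e12 : (1 : ℕ) ≠ q ^ 2 := (Nat.one_lt_pow two_ne_zero hq1).ne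
  have e13 : q ≠ q ^ 2 * q := by
    have : 1 < q ^ 2 := Nat.one_lt_pow two_ne_zero hq1
    nlinarith
  have n14 : J - (J ^ (q ^ 2)) ^ (q ^ 2) ≠ 0 := by
    rw [← pow_mul, sub_ne_zero]
    have := hJ 1 _ e14
    rwa [pow_one] at this
  have n12 : J - J ^ (q ^ 2) ≠ 0 := by
    rw [sub_ne_zero]
    have := hJ 1 _ e12
    rwa [pow_one] at this
  have n13 : J ^ q - (J ^ (q ^ 2)) ^ q ≠ 0 := by
    rw [← pow_mul, sub_ne_zero]
    exact hJ _ _ e13
  -- the four elements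
  set a : F := j1 - j0 ^ q with ha
  set c' : F := j0 - j2 ^ (q ^ 2) with hc'
  set c : F := j1 - j2 ^ q with hc
  set a' : F := j2 - j0 ^ (q ^ 2) with ha'
  have haK : a ∈ D.FK := D.FK.sub_mem h1 (D.FK.pow_mem h0 _)
  have hc'K : c' ∈ D.FK := D.FK.sub_mem h0 (D.FK.pow_mem h2 _)
  have hcK : c ∈ D.FK := D.FK.sub_mem h1 (D.FK.pow_mem h2 _)
  have ha'K : a' ∈ D.FK := D.FK.sub_mem h2 (D.FK.pow_mem h0 _)
  -- reductions of `e_z = a / (a + c')`
  have zo : Rd D.ρo (a / (a + c')) 0 := by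
    have h := ((r1.1.sub (r0.1.pow q)).div ro
      ((r1.1.sub (r0.1.pow q)).add (r0.1.sub (r2.1.pow (q ^ 2))))
      (by rw [sub_self, zero_add]; exact n14))
    rwa [sub_self, zero_div] at h
  have zm : Rd D.ρm (a / (a + c')) 0 := by
    have h := ((r1.2.1.sub (r0.2.1.pow q)).div rm
      ((r1.2.1.sub (r0.2.1.pow q)).add (r0.2.1.sub (r2.2.1.pow (q ^ 2))))
      (by rw [sub_self, zero_add]; exact n12))
    rwa [sub_self, zero_div] at h
  have zz : Rd D.ρz (a / (a + c')) 1 := by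
    have h := ((r1.2.2.sub (r0.2.2.pow q)).div rz
      ((r1.2.2.sub (r0.2.2.pow q)).add (r0.2.2.sub (r2.2.2.pow (q ^ 2))))
      (by rw [sub_self, add_zero]; exact n13))
    rwa [sub_self, add_zero, div_self n13] at h
  -- reductions of `e_o = c / (c + a')`
  have oo : Rd D.ρo (c / (c + a')) 1 := by
    have h := ((r1.1.sub (r2.1.pow q)).div ro
      ((r1.1.sub (r2.1.pow q)).add (r2.1.sub (r0.1.pow (q ^ 2))))
      (by rw [sub_self, add_zero]; exact n13))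
    rwa [sub_self, add_zero, div_self n13] at h
  have om : Rd D.ρm (c / (c + a')) 0 := by
    have h := ((r1.2.1.sub (r2.2.1.pow q)).div rm
      ((r1.2.1.sub (r2.2.1.pow q)).add (r2.2.1.sub (r0.2.1.pow (q ^ 2))))
      (by rw [sub_self, zero_add]; exact n12))
    rwa [sub_self, zero_div] at h
  have oz : Rd D.ρz (c / (c + a')) 0 := by
    have h := ((r1.2.2.sub (r2.2.2.pow q)).div rz
      ((r1.2.2.sub (r2.2.2.pow q)).add (r2.2.2.sub (r0.2.2.pow (q ^ 2))))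
      (by rw [sub_self, zero_add]; exact n14))
    rwa [sub_self, zero_div] at h
  have hzK : a / (a + c') ∈ D.FK := D.FK.div_mem haK (D.FK.add_mem haK hc'K)
  have hoK : c / (c + a') ∈ D.FK := D.FK.div_mem hcK (D.FK.add_mem hcK ha'K)
  refine ⟨ao, am, az, ⟨_, hoK, ?_, ?_, ?_⟩,
    ⟨1 - c / (c + a') - a / (a + c'), D.FK.sub_mem (D.FK.sub_mem D.FK.one_mem hoK) hzK, ?_, ?_, ?_⟩,
    ⟨_, hzK, ?_, ?_, ?_⟩⟩
  · exact oo.sub_lt ro Rd.one
  · exact (rd_zero_iff rm).1 om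
  · exact (rd_zero_iff rz).1 oz
  · rw [← rd_zero_iff ro]
    have h := (Rd.one.sub oo).sub zo
    rwa [sub_self, sub_zero] at h
  · refine Rd.sub_lt rm (φ := 1) ?_ Rd.one
    have h := (Rd.one.sub om).sub zm
    rwa [sub_zero, sub_zero] at h
  · rw [← rd_zero_iff rz]
    have h := (Rd.one.sub oz).sub zz
    rwa [sub_zero, sub_self] at h
  · exact (rd_zero_iff ro).1 zo
  · exact (rd_zero_iff rm).1 zm
  · exact zz.sub_lt rz Rd.one

theorem idem (hq : q.Prime) (hqM : ¬ q ∣ M') (hA : A.LiesOverPrime q) {ζ : Qbˣ}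
    (hζ : IsPrimitiveRoot ζ q) (c₀ : (ZMod q)ˣ) (eM : GEmb (FN (M' * q * q)))
    (heM : ∀ z, eM.hom z = eMidC M' q ζ c₀ z) : (dat A M' q eM).Idem :=
  Idem_abs (dat A M' q eM) (isRed_of A _) (isRed_of A _) (isRed_of A _)
    (arch_of A _ hq hA) (arch_of A _ hq hA) (arch_of A _ hq hA)
    (fun _ _ hab => jb_pow_ne hab) hq.two_le j0_mem j1_mem j2_mem
    (rd3_j0 hq hqM hA hζ c₀ eM heM) (rd3_j1 hq hqM hA hζ c₀ eM heM)
    (rd3_j2 hq hqM hA hζ c₀ eM heM)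

end Fermat.Agent.CAR.NRM.Inst
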