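import Fermat.Agent.CAR.NRM.Inst.Defs

/-!
# CAR / NRM / Inst / Inertia (package NRM-I2): the inertia group at `q` acts transitively on the primitive `q`-th roots of unity

Proof.  `q = 2`: `(ZMod 2)ˣ` is trivial, `σ = 1`.  `q ≠ 2`:  `χ : I → (ZMod q)ˣ` (`IsPrimitiveRoot.autToPow`, as in `DSC.relIndex_H1_dvd`) has kernel `H1 A ζ`, so
`r := (H1 A ζ).relIndex I = card (range χ)` divides `q - 1`, `r ≠ 0`.   `lam ζ = ζ - 1 ∈ EH (H1 A ζ)`, so `|lam|^r = |q|^j` (`DSC.pow_relIndex_value`), and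
`|lam|^(q-1) = |q|` (`DSC.valuation_lam_pow`).  Hence `|q|^(j (q-1)) = |q|^r`, `j (q - 1) = r` (`|q| < 1`, `≠ 0`), so `r = q - 1`, and `χ` is surjective (cardinalities).
-/

set_option autoImplicit false

open ModularCurve

noncomputable section

namespace Fermat.Agent.CAR.NRM.Inst

open Fermat.Agent.S24 Fermat.Agent.S28 Fermat.Agent.GR Fermat.Agent.GR.HeckeField
  Fermat.Agent.TOR.GB Fermat.Agent.GAL Fermat.Agent.GAL.KL Fermat.Agent.GAL.KLC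
  Fermat.Agent.TOR.T1 Fermat.Agent.CAR.FQ2E Fermat.Agent.CAR.FQ2V

variable {A : ValuationSubring Qb} {q : ℕ} [NeZero q]

/-- the cyclotomic character is surjective on the inertia group at `q`. -/
theorem inertia_autToPow_surjective (hq : q.Prime) (hA : A.LiesOverPrime q) {ζ : Qbˣ}
    (hζ : IsPrimitiveRoot ζ q) (hz : IsPrimitiveRoot (ζ : Qb) q) (a : (ZMod q)ˣ) :
    ∃ σ ∈ IA A, hz.autToPow ℚ σ = a := by
  have : Fact q.Prime := ⟨hq⟩
  by_cases hq2 : q = 2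
  · subst hq2
    exact ⟨1, (IA A).one_mem, Subsingleton.elim _ _⟩
  set χ : ↥(IA A) →* (ZMod q)ˣ := (hz.autToPow ℚ).comp (IA A).subtype with hχ
  have hker : (DSC.H1 A ζ).subgroupOf (IA A) = χ.ker := by
    ext τ
    rw [Subgroup.mem_subgroupOf, DSC.mem_H1, MonoidHom.mem_ker, hχ, MonoidHom.comp_apply,
      DSC.unifLam_autToPow_eq_one_iff hq hz]
    exact ⟨fun h => h.2, fun h => ⟨τ.2, h⟩⟩
  have hr : (DSC.H1 A ζ).relIndex (IA A) = Nat.card χ.range := by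
    rw [Subgroup.relIndex, hker, Subgroup.index_ker]
  have hdvd := DSC.relIndex_H1_dvd A hq hζ
  have hq1 : q - 1 ≠ 0 := by have := hq.two_le; omega
  have hm : (DSC.H1 A ζ).relIndex (IA A) ≠ 0 := by
    intro h0
    rw [h0, zero_dvd_iff] at hdvd
    exact hq1 hdvd
  have hlam : ORD.P2.lam ζ ∈ DSC.EH (DSC.H1 A ζ) := by
    rw [DSC.mem_EH]
    intro τ hτ
    rw [ORD.P2.lam, map_sub, map_one, (DSC.mem_H1.mp hτ).2]
  obtain ⟨j, hj⟩ := DSC.pow_relIndex_value A hq hA (DSC.H1_le A ζ) hm hlam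
    (ORD.P2.lam_ne_zero hq hζ)
  have hl := DSC.valuation_lam_pow A hq hq2 hA hζ
  have hq0 : (q : Qb) ≠ 0 := Nat.cast_ne_zero.2 hq.ne_zero
  have hv0 : 0 < A.valuation (q : Qb) := zero_lt_iff.2 ((Valuation.ne_zero_iff _).2 hq0)
  have hv1 : A.valuation (q : Qb) < 1 := A.mem_nonunits_iff.1 hA
  have h1 : A.valuation (q : Qb) ^ (((DSC.H1 A ζ).relIndex (IA A) : ℕ) : ℤ) =
      A.valuation (q : Qb) ^ (j * ((q - 1 : ℕ) : ℤ)) := by
    rw [zpow_mul, ← hj, zpow_natCast, zpow_natCast, ← hl, ← pow_mul, ← pow_mul, mul_comm]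
  have h2 := zpow_right_injective₀ hv0 hv1.ne h1
  have h3 : (q - 1) ∣ (DSC.H1 A ζ).relIndex (IA A) := by
    have : ((q - 1 : ℕ) : ℤ) ∣ (((DSC.H1 A ζ).relIndex (IA A) : ℕ) : ℤ) := ⟨j, by rw [h2, mul_comm]⟩
    exact_mod_cast this
  have h4 : (DSC.H1 A ζ).relIndex (IA A) = q - 1 := Nat.dvd_antisymm hdvd h3
  have h5 : χ.range = ⊤ := by
    apply Subgroup.eq_top_of_card_eq
    rw [← hr, h4, Nat.card_eq_fintype_card, ZMod.card_units]
  have h6 : a ∈ χ.range := by rw [h5]; exact Subgroup.mem_top a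
  obtain ⟨σ, hσ⟩ := h6
  exact ⟨σ.1, σ.2, hσ⟩

theorem exists_inertia_pow (hq : q.Prime) (hA : A.LiesOverPrime q) {ζ : Qbˣ}
    (hζ : IsPrimitiveRoot ζ q) (a : (ZMod q)ˣ) :
    ∃ σ ∈ IA A, Units.map ((σ : Qb →+* Qb) : Qb →* Qb) ζ = zpw q ζ a := by
  have hz : IsPrimitiveRoot (ζ : Qb) q := IsPrimitiveRoot.coe_units_iff.2 hζ
  obtain ⟨σ, hσ, h⟩ := inertia_autToPow_surjective hq hA hζ hz a
  refine ⟨σ, hσ, Units.ext ?_⟩
  have hspec := hz.autToPow_spec ℚ σ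
  rw [h] at hspec
  show σ (ζ : Qb) = ((ζ ^ (a : ZMod q).val : Qbˣ) : Qb)
  rw [Units.val_pow_eq_pow_val, hspec]

end Fermat.Agent.CAR.NRM.Inst
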