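import Fermat.Agent.CAR.NRM.Inst.OpsK

/-!
# CAR / NRM / Inst / JRed (package NRM-I8): the three copies `j(Q), j(Q^q), j(Q^{q²})` of `j` and their reductions at the three cusps

`j0 = α j`, `j1 = β j`, `j2 = γ j`.   `jb := jqModC k` (`k = kA A` of characteristic `q`).   `V jb = jb^q` because `jb` has coefficients in `𝔽_q`.
TABLE (`∞`, mid, `0`):   `j0 : (jb, jb, jb^(q²))`,   `j1 : (jb^q, jb^q, jb^q)`,   `j2 : (jb^(q²), jb, jb)`.
Ingredients: `coe_heckeAlphaBar`, `coe_heckeBetaBar`, `eMid_alp_alp`, `eMid_alp_bet`, `eMid_bet_bet`, `wqq_alp_alp`, `wqq_alp_bet`, `wqq_bet_bet`, `FQ2V.hasRed_int` / `coeffMap_jqModC`,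
`FQ2V.hasRed_qExpand'`, `FQ2V.hasRed_twist`, `GR.pow_char_eq_qExpand`, `charP_residueField`.
-/

set_option autoImplicit false

open ModularCurve

noncomputable section

namespace Fermat.Agent.CAR.NRM.Inst

open Fermat.Agent.S24 Fermat.Agent.S28 Fermat.Agent.GR Fermat.Agent.GR.HeckeField
  Fermat.Agent.TOR.GB Fermat.Agent.GAL Fermat.Agent.GAL.KL Fermat.Agent.GAL.KLC
  Fermat.Agent.TOR.T1 Fermat.Agent.CAR.FQ2E Fermat.Agent.CAR.FQ2V

variable (A : ValuationSubring Qb) (M' q : ℕ) [NeZero M'] [NeZero q]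

/-- `j(Q)`. -/
def j0 : FN (M' * q * q) := alp (M' * q) q (alp M' q (JJ M'))
/-- `j(Q^q)`. -/
def j1 : FN (M' * q * q) := alp (M' * q) q (bet M' q (JJ M'))
/-- `j(Q^{q²})`. -/
def j2 : FN (M' * q * q) := bet (M' * q) q (bet M' q (JJ M'))

/-- `j` modulo `q`. -/
abbrev jb : LaurentSeries (kA A) := jqModC (kA A)

variable {A M' q}

theorem coe_JJ (N : ℕ) : ((JJ N : FN N) : LaurentSeries Qb) = jqModC Qb := by
  show coeffEmb Qb (qExpand ℚ 1 jq) = jqModC Qb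
  rw [qExpand_one_apply]
  exact coeffMap_jqModC (algebraMap ℚ Qb)

theorem hasRed_jq : HasRed A (jqModC Qb) (jb A) := by
  have h := hasRed_int (A := A) (jqModC ℤ)
  rwa [coeffMap_jqModC, coeffMap_jqModC] at h

/-- `V jb = jb^q`. -/
theorem qExpand_jb (hq : q.Prime) (hA : A.LiesOverPrime q) : qExpand (kA A) q (jb A) = jb A ^ q := by
  have : CharP (kA A) q := charP_residueField hq hA
  have : Fact q.Prime := ⟨hq⟩
  have : ExpChar (kA A) q := ExpChar.prime hq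
  rw [pow_char_eq_qExpand q (jb A), coeffMap_jqModC]

/-- `jb^a ≠ jb^b` for `a ≠ b` (orders `-a ≠ -b`: `coeff_jqModC_neg_one`, `coeff_jqModC_of_lt`, or: `jb` is not a root of unity/zero since its order is `-1`). -/
theorem jb_pow_ne {a b : ℕ} (hab : a ≠ b) : jb A ^ a ≠ jb A ^ b := by
  intro h
  have h1 := congrArg HahnSeries.order h
  rw [HahnSeries.order_pow, HahnSeries.order_pow, S28.order_jqModC (kA A)] at h1
  simp only [smul_eq_mul, nsmul_eq_mul, mul_neg, mul_one, neg_inj, Nat.cast_inj] at h1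
  exact hab h1

theorem theta_jb_ne : CT.theta (jb A) ≠ 0 := by
  intro h
  have h1 := congrArg (fun z => HahnSeries.coeff z (-1)) h
  simp only [CT.theta_coeff, HahnSeries.coeff_zero, coeff_jqModC_neg_one] at h1
  simp at h1

theorem j0_mem : j0 M' q ∈ FK A (M' * q * q) :=
  alp_mem_FK _ _ (alp_mem_FK _ _ (JJ_mem_FK _))

theorem j1_mem : j1 M' q ∈ FK A (M' * q * q) :=
  alp_mem_FK _ _ (bet_mem_FK _ _ (JJ_mem_FK _))

theorem j2_mem : j2 M' q ∈ FK A (M' * q * q) :=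
  bet_mem_FK _ _ (bet_mem_FK _ _ (JJ_mem_FK _))

theorem JRed_coe_j0 : ((j0 M' q : FN (M' * q * q)) : LaurentSeries Qb) = jqModC Qb := by
  rw [j0, coe_heckeAlphaBar, coe_heckeAlphaBar, coe_JJ]

theorem JRed_coe_j1 :
    ((j1 M' q : FN (M' * q * q)) : LaurentSeries Qb) = qExpand Qb q (jqModC Qb) := by
  rw [j1, coe_heckeAlphaBar, coe_heckeBetaBar, coe_JJ]

theorem JRed_coe_j2 : ((j2 M' q : FN (M' * q * q)) : LaurentSeries Qb)
    = qExpand Qb q (qExpand Qb q (jqModC Qb)) := by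
  rw [j2, coe_heckeBetaBar, coe_heckeBetaBar, coe_JJ]

theorem JRed_hasRed_V (hq : q.Prime) (hA : A.LiesOverPrime q) :
    HasRed A (qExpand Qb q (jqModC Qb)) (jb A ^ q) := by
  rw [← qExpand_jb hq hA]
  exact hasRed_qExpand' q hasRed_jq

theorem JRed_hasRed_VV (hq : q.Prime) (hA : A.LiesOverPrime q) :
    HasRed A (qExpand Qb q (qExpand Qb q (jqModC Qb))) (jb A ^ (q ^ 2)) := by
  have h := hasRed_qExpand' q (JRed_hasRed_V hq hA)
  rwa [map_pow, qExpand_jb hq hA, ← pow_mul, ← pow_two] at h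

section

variable (hq : q.Prime) (hqM : ¬ q ∣ M') (hA : A.LiesOverPrime q) {ζ : Qbˣ}
  (hζ : IsPrimitiveRoot ζ q) (c₀ : (ZMod q)ˣ) (eM : GEmb (FN (M' * q * q)))
  (heM : ∀ z, eM.hom z = eMidC M' q ζ c₀ z)

include hq hqM hA hζ heM

theorem rd3_j0 : (dat A M' q eM).Rd3 (j0 M' q) (jb A) (jb A) (jb A ^ (q ^ 2)) := by
  rw [rd3_iff]
  refine ⟨?_, ?_, ?_⟩
  · rw [JRed_coe_j0]; exact hasRed_jq
  · rw [heM, j0, eMidC, eMid_alp_alp, coe_JJ]; exact hasRed_jq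
  · rw [j0, wqq_alp_alp hq hqM]
    have := JRed_coe_j2 (M' := M') (q := q)
    rw [j2] at this
    rw [this]
    exact JRed_hasRed_VV hq hA

theorem rd3_j1 : (dat A M' q eM).Rd3 (j1 M' q) (jb A ^ q) (jb A ^ q) (jb A ^ q) := by
  rw [rd3_iff]
  refine ⟨?_, ?_, ?_⟩
  · rw [JRed_coe_j1]; exact JRed_hasRed_V hq hA
  · rw [heM, j1, eMidC, eMid_alp_bet, coe_JJ]; exact JRed_hasRed_V hq hA
  · rw [j1, wqq_alp_bet hq hqM]
    have := JRed_coe_j1 (M' := M') (q := q)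
    rw [j1] at this
    rw [this]
    exact JRed_hasRed_V hq hA

theorem rd3_j2 : (dat A M' q eM).Rd3 (j2 M' q) (jb A ^ (q ^ 2)) (jb A) (jb A) := by
  rw [rd3_iff]
  refine ⟨?_, ?_, ?_⟩
  · rw [JRed_coe_j2]; exact JRed_hasRed_VV hq hA
  · rw [heM, j2, eMidC, eMid_bet_bet hq hqM (zpw_pow hζ c₀) (zpw_ne_one hq hζ c₀), coe_JJ]
    exact hasRed_twist hq hA _ (zpw_pow hζ c₀) hasRed_jq
  · rw [j2, wqq_bet_bet hq hqM]
    have := JRed_coe_j0 (M' := M') (q := q)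
    rw [j0] at this
    rw [this]
    exact hasRed_jq

/-- the middle expansion of `j2 - j0`. -/
theorem eM_j2_sub_j0 : eM.hom (j2 M' q - j0 M' q) = twist (zpw q ζ c₀) (jqModC Qb) - jqModC Qb := by
  rw [map_sub, heM, heM, j2, j0, eMidC,
    eMid_bet_bet hq hqM (zpw_pow hζ c₀) (zpw_ne_one hq hζ c₀), eMid_alp_alp, coe_JJ]

end

end Fermat.Agent.CAR.NRM.Inst
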