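import Fermat.Agent.CAR.NRM.Inst.OpsK

/-!
# CAR / NRM / Inst / NP (package NRM-I12): the norm conditions over `ℚ̄` descend to `K`

`N1 h = y^n` in `FN (M' q)` ⇒ `P1 h = (alp y)^n`, `P1 h ∈ F_K`, `≠ 0`; `DSC.kummer_descent (IA A) hn.ne' (W := P1 h) (g := alp y) (c := 1)` gives `c' ∈ K`, `g' ∈ F_K` with `P1 h = C c' * g'^n`
(`mem_FK_iff`; `c' ≠ 0` because `P1 h ≠ 0`; `algebraMap Qb (FN N) c'` has coercion `C c'`).
-/

set_option autoImplicit false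

open ModularCurve

noncomputable section

namespace Fermat.Agent.CAR.NRM.Inst

open Fermat.Agent.S24 Fermat.Agent.S28 Fermat.Agent.GR Fermat.Agent.GR.HeckeField
  Fermat.Agent.TOR.GB Fermat.Agent.GAL Fermat.Agent.GAL.KL Fermat.Agent.GAL.KLC
  Fermat.Agent.TOR.T1 Fermat.Agent.CAR.FQ2E Fermat.Agent.CAR.FQ2V

variable {A : ValuationSubring Qb} {M' q : ℕ} [NeZero M'] [NeZero q]

/-- general form. -/
theorem exists_descent (N : ℕ) {n : ℕ} (hn : 0 < n) {W g : FN N} (hW : W ∈ FK A N) (hW0 : W ≠ 0)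
    (h : W = g ^ n) :
    ∃ κ ∈ KK A, κ ≠ 0 ∧ ∃ y ∈ FK A N, W = algebraMap Qb (FN N) κ * y ^ n := by
  have hW' : (W : LaurentSeries Qb) ∈ DSC.FH (IA A) N := (mem_FK_iff A).1 hW
  have hW0' : (W : LaurentSeries Qb) ≠ 0 := fun h0 => hW0 (Subtype.ext h0)
  have hpow : (W : LaurentSeries Qb) = HahnSeries.C (1 : Qb) * (g : LaurentSeries Qb) ^ n := by
    rw [h, map_one, one_mul]
    rfl
  obtain ⟨c', hc', g', hg', hWg, -⟩ :=
    DSC.kummer_descent (IA A) hn.ne' hW' hW0' g.2 hpow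
  have hc0 : c' ≠ 0 := by
    rintro rfl
    rw [map_zero, zero_mul] at hWg
    exact hW0' hWg
  refine ⟨c', hc', hc0, ⟨g', hg'.1⟩, (mem_FK_iff A).2 hg', Subtype.ext ?_⟩
  rw [hWg, GAL.C_eq_algebraMap]
  rfl

theorem np_P1 (hq : q.Prime) (hqM : ¬ q ∣ M') (eM : GEmb (FN (M' * q * q))) {n : ℕ} (hn : 0 < n)
    {h : FN (M' * q * q)} (hK : h ∈ FK A (M' * q * q)) (h0 : h ≠ 0)
    (hy : ∃ y : FN (M' * q), y ^ n = N1 M' q h) :
    (dat A M' q eM).NP n (dat A M' q eM).P1 h := by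
  obtain ⟨y, hy⟩ := hy
  have h1 : P1 M' q h = (alp (M' * q) q y) ^ n := by
    rw [P1_apply, ← hy, map_pow]
  have h2 : P1 M' q h ≠ 0 := ((IsUnit.mk0 h h0).map (P1 M' q)).ne_zero
  exact exists_descent (A := A) (M' * q * q) hn (P1_mem_FK hq hqM hK) h2 h1

theorem np_P2 (hq : q.Prime) (hqM : ¬ q ∣ M') (eM : GEmb (FN (M' * q * q))) {n : ℕ} (hn : 0 < n)
    {h : FN (M' * q * q)} (hK : h ∈ FK A (M' * q * q)) (h0 : h ≠ 0)
    (hy : ∃ y : FN (M' * q), y ^ n = N2 M' q h) :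
    (dat A M' q eM).NP n (dat A M' q eM).P2 h := by
  obtain ⟨y, hy⟩ := hy
  have h1 : P2 M' q h = (bet (M' * q) q y) ^ n := by
    rw [P2_apply, ← hy, map_pow]
  have h2 : P2 M' q h ≠ 0 := ((IsUnit.mk0 h h0).map (P2 M' q)).ne_zero
  exact exists_descent (A := A) (M' * q * q) hn (P2_mem_FK hq hqM hK) h2 h1

end Fermat.Agent.CAR.NRM.Inst
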