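import Fermat.Agent.CAR.NRM.Inst.Inertia

/-!
# CAR / NRM / Inst / Table (package NRM-I3): the expansions of `P1 z`, `P2 z` at the three kinds of cusps (all formal from FQ2E)

`so z = z(Q)`, `sm c z = eMidC ζ c z`, `sz z = (w_{q²} z)(Q)`.
* `P1 z` : `(so z ∏_c sm c z,  so z ∏_c sm c z,  (N sz z)(Q^q))`
* `P2 z` : `((N so z)(Q^q),  twist (sz z ∏_c twist⁻¹ sm c z),  sz z ∏_c twist⁻¹ sm c z)`
Black boxes: `coe_N1_idx`, `coe_wq_N1`, `coe_N2`, `coe_wq_N2_idx`, `eMidC_alp`, `eMidC_bet`, `wqq_alp`, `wqq_bet`, `coe_heckeAlphaBar`, `coe_heckeBetaBar`, `galS_eMidC`.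
-/

set_option autoImplicit false

open ModularCurve

noncomputable section

namespace Fermat.Agent.CAR.NRM.Inst

open Fermat.Agent.S24 Fermat.Agent.S28 Fermat.Agent.GR Fermat.Agent.GR.HeckeField
  Fermat.Agent.TOR.GB Fermat.Agent.GAL Fermat.Agent.GAL.KL Fermat.Agent.GAL.KLC
  Fermat.Agent.TOR.T1 Fermat.Agent.CAR.FQ2E Fermat.Agent.CAR.FQ2V

variable {A : ValuationSubring Qb} {M' q : ℕ} [NeZero M'] [NeZero q]

theorem coe_P1 (hq : q.Prime) (hqM : ¬ q ∣ M') {ζ : Qbˣ} (hζ : IsPrimitiveRoot ζ q)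
    (z : FN (M' * q * q)) : letI : Fact q.Prime := ⟨hq⟩
    ((P1 M' q z : FN (M' * q * q)) : LaurentSeries Qb)
      = (z : LaurentSeries Qb) * ∏ c : (ZMod q)ˣ, eMidC M' q ζ c z := by
  rw [P1_apply, coe_heckeAlphaBar]
  exact coe_N1_idx hq hqM hζ z

theorem eMidC_P1 (hq : q.Prime) (hqM : ¬ q ∣ M') {ζ : Qbˣ} (hζ : IsPrimitiveRoot ζ q)
    (c₀ : (ZMod q)ˣ) (z : FN (M' * q * q)) : letI : Fact q.Prime := ⟨hq⟩
    eMidC M' q ζ c₀ (P1 M' q z) = (z : LaurentSeries Qb) * ∏ c : (ZMod q)ˣ, eMidC M' q ζ c z := by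
  rw [P1_apply, eMidC_alp]
  exact coe_N1_idx hq hqM hζ z

theorem coe_wqq_P1 (hq : q.Prime) (hqM : ¬ q ∣ M') (z : FN (M' * q * q)) :
    ((wqq M' q (P1 M' q z) : FN (M' * q * q)) : LaurentSeries Qb)
      = qExpand Qb q (NmL Qb q ((wqq M' q z : FN (M' * q * q)) : LaurentSeries Qb)) := by
  rw [P1_apply, wqq_alp hq hqM, coe_heckeBetaBar, coe_wq_N1 hq hqM]

theorem coe_P2 (hq : q.Prime) (hqM : ¬ q ∣ M') (z : FN (M' * q * q)) :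
    ((P2 M' q z : FN (M' * q * q)) : LaurentSeries Qb)
      = qExpand Qb q (NmL Qb q (z : LaurentSeries Qb)) := by
  rw [P2_apply, coe_heckeBetaBar, coe_N2 hq hqM]

theorem coe_wqq_P2 (hq : q.Prime) (hqM : ¬ q ∣ M') {ζ : Qbˣ} (hζ : IsPrimitiveRoot ζ q)
    (z : FN (M' * q * q)) : letI : Fact q.Prime := ⟨hq⟩
    ((wqq M' q (P2 M' q z) : FN (M' * q * q)) : LaurentSeries Qb)
      = ((wqq M' q z : FN (M' * q * q)) : LaurentSeries Qb)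
        * ∏ c : (ZMod q)ˣ, twist (zpw q ζ c)⁻¹ (eMidC M' q ζ c z) := by
  rw [P2_apply, wqq_bet hq hqM, coe_heckeAlphaBar]
  exact coe_wq_N2_idx hq hqM hζ z

theorem eMidC_P2 (hq : q.Prime) (hqM : ¬ q ∣ M') {ζ : Qbˣ} (hζ : IsPrimitiveRoot ζ q)
    (c₀ : (ZMod q)ˣ) (z : FN (M' * q * q)) : letI : Fact q.Prime := ⟨hq⟩
    eMidC M' q ζ c₀ (P2 M' q z)
      = twist (zpw q ζ c₀) (((wqq M' q z : FN (M' * q * q)) : LaurentSeries Qb)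
        * ∏ c : (ZMod q)ˣ, twist (zpw q ζ c)⁻¹ (eMidC M' q ζ c z)) := by
  rw [P2_apply, eMidC_bet hq hqM hζ]
  congr 1
  exact coe_wq_N2_idx hq hqM hζ z

/-- the middle expansions of a `K`-rational function are conjugate under inertia
(`exists_inertia_pow` with `a = c * c₀⁻¹`, `galS_eMidC`). -/
theorem exists_galS_eMidC (hq : q.Prime) (hqM : ¬ q ∣ M') (hA : A.LiesOverPrime q) {ζ : Qbˣ}
    (hζ : IsPrimitiveRoot ζ q) (c₀ c : (ZMod q)ˣ) {z : FN (M' * q * q)}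
    (hz : z ∈ FK A (M' * q * q)) :
    ∃ σ ∈ IA A, eMidC M' q ζ c z = galS σ (eMidC M' q ζ c₀ z) := by
  obtain ⟨σ, hσ, ha⟩ := exists_inertia_pow hq hA hζ (c * c₀⁻¹)
  refine ⟨σ, hσ, ?_⟩
  rw [galS_eMidC hq hqM hζ σ (c * c₀⁻¹) ha c₀ z, hz σ hσ, inv_mul_cancel_right]

end Fermat.Agent.CAR.NRM.Inst
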