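import Fermat.Agent.CAR.NRM.Inst.Series
import Fermat.Agent.CAR.NRM.Inst.Table

/-!
# CAR / NRM / Inst / OpsR (package NRM-I6): the reductions of `P1 z`, `P2 z` for `z ∈ F_K`

`red z = (a, b, c)` ⇒ `red (P1 z) = (a b^(q-1), a b^(q-1), c^q)`, `red (P2 z) = (a^q, c b^(q-1), c b^(q-1))`.
From Table.lean; `HasRed.mul`, a finite product of `HasRed` (induction), `hasRed_mid` below, `FQ2V.hasRed_twist`, `hasRed_qExpand_NmL`, `ZMod.card_units`, `Finset.prod_const`.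
-/

set_option autoImplicit false

open ModularCurve

noncomputable section

namespace Fermat.Agent.CAR.NRM.Inst

open Fermat.Agent.S24 Fermat.Agent.S28 Fermat.Agent.GR Fermat.Agent.GR.HeckeField
  Fermat.Agent.TOR.GB Fermat.Agent.GAL Fermat.Agent.GAL.KL Fermat.Agent.GAL.KLC
  Fermat.Agent.TOR.T1 Fermat.Agent.CAR.FQ2E Fermat.Agent.CAR.FQ2V

variable {A : ValuationSubring Qb} {M' q : ℕ} [NeZero M'] [NeZero q]

/-- all the middle reductions coincide on `F_K` (`exists_galS_eMidC`, `hasRed_galS_inertia`). -/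
theorem hasRed_mid (hq : q.Prime) (hqM : ¬ q ∣ M') (hA : A.LiesOverPrime q) {ζ : Qbˣ}
    (hζ : IsPrimitiveRoot ζ q) (c₀ c : (ZMod q)ˣ) {z : FN (M' * q * q)}
    (hz : z ∈ FK A (M' * q * q)) {b : LaurentSeries (kA A)}
    (h : HasRed A (eMidC M' q ζ c₀ z) b) : HasRed A (eMidC M' q ζ c z) b := by
  obtain ⟨σ, hσ, e⟩ := exists_galS_eMidC hq hqM hA hζ c₀ c hz
  rw [e]
  exact hasRed_galS_inertia hσ h

theorem hasRed_prod {ι : Type*} (s : Finset ι) {x : ι → LaurentSeries Qb}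
    {φ : ι → LaurentSeries (kA A)} (h : ∀ i ∈ s, HasRed A (x i) (φ i)) :
    HasRed A (∏ i ∈ s, x i) (∏ i ∈ s, φ i) := by
  classical
  induction s using Finset.induction_on with
  | empty => simpa using (HasRed.one (A := A))
  | insert i s hi ih =>
    rw [Finset.prod_insert hi, Finset.prod_insert hi]
    exact (h i (Finset.mem_insert_self i s)).mul
      (ih fun j hj => h j (Finset.mem_insert_of_mem hj))

theorem rP1 (hq : q.Prime) (hqM : ¬ q ∣ M') (hA : A.LiesOverPrime q) {ζ : Qbˣ}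
    (hζ : IsPrimitiveRoot ζ q) (c₀ : (ZMod q)ˣ) (eM : GEmb (FN (M' * q * q)))
    (heM : ∀ z, eM.hom z = eMidC M' q ζ c₀ z) {z : FN (M' * q * q)} (hz : z ∈ FK A (M' * q * q))
    {a b c : LaurentSeries (kA A)} (h : (dat A M' q eM).Rd3 z a b c) :
    (dat A M' q eM).Rd3 (P1 M' q z) (a * b ^ (q - 1)) (a * b ^ (q - 1)) (c ^ q) := by
  have : Fact q.Prime := ⟨hq⟩
  obtain ⟨ha, hb, hc⟩ := rd3_iff.1 h
  rw [heM] at hb
  have hprod : HasRed A (∏ c : (ZMod q)ˣ, eMidC M' q ζ c z) (b ^ (q - 1)) := by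
    have h1 := hasRed_prod (A := A) (Finset.univ : Finset (ZMod q)ˣ)
      (x := fun c => eMidC M' q ζ c z) (φ := fun _ => b)
      (fun c _ => hasRed_mid hq hqM hA hζ c₀ c hz hb)
    rwa [Finset.prod_const, Finset.card_univ, ZMod.card_units] at h1
  refine rd3_iff.2 ⟨?_, ?_, ?_⟩
  · rw [coe_P1 hq hqM hζ]
    exact ha.mul hprod
  · rw [heM, eMidC_P1 hq hqM hζ]
    exact ha.mul hprod
  · rw [coe_wqq_P1 hq hqM]
    exact hasRed_qExpand_NmL hq hA hc

theorem rP2 (hq : q.Prime) (hqM : ¬ q ∣ M') (hA : A.LiesOverPrime q) {ζ : Qbˣ}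
    (hζ : IsPrimitiveRoot ζ q) (c₀ : (ZMod q)ˣ) (eM : GEmb (FN (M' * q * q)))
    (heM : ∀ z, eM.hom z = eMidC M' q ζ c₀ z) {z : FN (M' * q * q)} (hz : z ∈ FK A (M' * q * q))
    {a b c : LaurentSeries (kA A)} (h : (dat A M' q eM).Rd3 z a b c) :
    (dat A M' q eM).Rd3 (P2 M' q z) (a ^ q) (c * b ^ (q - 1)) (c * b ^ (q - 1)) := by
  have : Fact q.Prime := ⟨hq⟩
  obtain ⟨ha, hb, hc⟩ := rd3_iff.1 h
  rw [heM] at hb
  have hprod : HasRed A (∏ c : (ZMod q)ˣ, twist (zpw q ζ c)⁻¹ (eMidC M' q ζ c z))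
      (b ^ (q - 1)) := by
    have h1 := hasRed_prod (A := A) (Finset.univ : Finset (ZMod q)ˣ)
      (x := fun c => twist (zpw q ζ c)⁻¹ (eMidC M' q ζ c z)) (φ := fun _ => b)
      (fun c _ => hasRed_twist hq hA _ (by rw [inv_pow, zpw_pow hζ, inv_one])
        (hasRed_mid hq hqM hA hζ c₀ c hz hb))
    rwa [Finset.prod_const, Finset.card_univ, ZMod.card_units] at h1
  refine rd3_iff.2 ⟨?_, ?_, ?_⟩
  · rw [coe_P2 hq hqM]
    exact hasRed_qExpand_NmL hq hA ha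
  · rw [heM, eMidC_P2 hq hqM hζ]
    exact hasRed_twist hq hA _ (zpw_pow hζ c₀) (hc.mul hprod)
  · rw [coe_wqq_P2 hq hqM hζ]
    exact hc.mul hprod

end Fermat.Agent.CAR.NRM.Inst
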