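import Fermat.Agent.CAR.NRM.Main

/-!
# CAR / NRM / Inst / Transfer : `Transfer` is a FORMAL consequence of `Approx` and of the table of `P1`

`z ∈ F_K`, `red_o z = φ ≠ 0`.  Take `z₀ ∈ F_K`, `z₀ ≈ (z, 1, 1)`: `red z₀ = (φ, 1, 1)`, so `red (P1 z₀) = (φ, φ, 1)`.
-/

set_option autoImplicit false

noncomputable section

namespace Fermat.Agent.CAR.NRM

open Fermat.Agent.GAL.KL Fermat.Agent.GAL.KLC Fermat.Agent.TOR.T1

variable {L F k Γ₀ : Type*} [Field L] [Field F] [Algebra L F] [Field k]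
  [LinearOrderedCommGroupWithZero Γ₀] {D : Dat L F k Γ₀}

theorem transfer_of_approx (B : D.Base) {q : ℕ} (O : D.Ops q) (hA : D.Approx) : D.Transfer := by
  intro z hz φ hφ
  by_cases h0 : φ = 0
  · subst h0
    exact ⟨0, D.FK.zero_mem, Rd.zero⟩
  have hz0 : z ≠ 0 := by
    rintro rfl
    exact h0 (hφ.unique Rd.zero)
  obtain ⟨z₀, hz₀, -, h1, h2, h3⟩ := hA z hz 1 D.FK.one_mem 1 D.FK.one_mem hz0 one_ne_zero one_ne_zero
  have r1 : Rd D.ρo z₀ φ := by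
    have h4 : Rd D.ρo (z₀ / z) 1 := Rd.of_sub_lt B.redo Rd.one h1
    have := h4.mul hφ
    rwa [div_mul_cancel₀ _ hz0, one_mul] at this
  have r2 : Rd D.ρm z₀ 1 := by
    rw [div_one] at h2
    exact Rd.of_sub_lt B.redm Rd.one h2
  have r3 : Rd D.ρz z₀ 1 := by
    rw [div_one] at h3
    exact Rd.of_sub_lt B.redz Rd.one h3
  have := (O.rP1 z₀ hz₀ φ 1 1 ⟨r1, r2, r3⟩).2.1
  rw [one_pow, mul_one] at this
  exact ⟨D.P1 z₀, O.P1K z₀ hz₀, this⟩

end Fermat.Agent.CAR.NRM
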