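import Fermat.Agent.CAR.NRM.Inst.JRed
import Fermat.Agent.CAR.NRM.Inst.Series

/-!
# CAR / NRM / Inst / Unif (package NRM-I9): `δ = j(Q^{q²}) - j(Q)` is a uniformiser of the middle valuation on `F_K`

`eM δ = j(ζ^c Q) - j(Q)` (`eM_j2_sub_j0`); `FQ2V.hasRed_twist_sub_div` (with `c := (c₀ : ZMod q).val`; `zpw q ζ c₀ = ζ ^ c₀.val`): `(eM δ) / C (ζ - 1)` reduces to `C c₀ * θ jb ≠ 0`
(`theta_jb_ne`; `(c₀.val : k) ≠ 0` since `q ∤ c₀.val` and `k` has characteristic `q`).  So `vm δ = vL (ζ - 1)`.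
`vL (ζ - 1)^(q-1) = vL q`: for `q ≠ 2` `DSC.valuation_lam_pow` + `vL_eq_of_valuation_eq`; for `q = 2`: `ζ = -1`, `ζ - 1 = -2`.
-/

set_option autoImplicit false

open ModularCurve

noncomputable section

namespace Fermat.Agent.CAR.NRM.Inst

open Fermat.Agent.S24 Fermat.Agent.S28 Fermat.Agent.GR Fermat.Agent.GR.HeckeField
  Fermat.Agent.TOR.GB Fermat.Agent.GAL Fermat.Agent.GAL.KL Fermat.Agent.GAL.KLC
  Fermat.Agent.TOR.T1 Fermat.Agent.CAR.FQ2E Fermat.Agent.CAR.FQ2V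

variable {A : ValuationSubring Qb} {M' q : ℕ} [NeZero M'] [NeZero q]

theorem vL_lam_pow (hq : q.Prime) (hA : A.LiesOverPrime q) {ζ : Qbˣ} (hζ : IsPrimitiveRoot ζ q) :
    vL A ((ζ : Qb) - 1) ^ (q - 1) = vL A (q : Qb) := by
  by_cases hq2 : q = 2
  · subst hq2
    have h1 : (ζ : Qb) = -1 := by
      have h2 : IsPrimitiveRoot (ζ : Qb) 2 := hζ.map_of_injective (f := Units.coeHom Qb) Units.val_injective
      exact h2.eq_neg_one_of_two_right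
    rw [h1]
    have h3 : (-1 - 1 : Qb) = -((2 : ℕ) : Qb) := by norm_num
    rw [h3, Valuation.map_neg]
    norm_num
  · have h1 := DSC.valuation_lam_pow A hq hq2 hA hζ
    rw [← map_pow] at h1
    have h2 := vL_eq_of_valuation_eq h1
    rw [map_pow] at h2
    exact h2

theorem vm_delta (hq : q.Prime) (hqM : ¬ q ∣ M') (hA : A.LiesOverPrime q) {ζ : Qbˣ}
    (hζ : IsPrimitiveRoot ζ q) (c₀ : (ZMod q)ˣ) (eM : GEmb (FN (M' * q * q)))
    (heM : ∀ z, eM.hom z = eMidC M' q ζ c₀ z) :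
    vOf A eM (j2 M' q - j0 M' q) = vL A ((ζ : Qb) - 1) := by
  have hζ1 : ζ ≠ 1 := hζ.ne_one hq.one_lt
  have ha : (ζ : Qb) - 1 ≠ 0 := by
    rw [sub_ne_zero]
    intro h1
    exact hζ1 (Units.ext h1)
  have hchar : CharP (kA A) q := charP_residueField hq hA
  have h1 := hasRed_twist_sub_div hq hA ζ hζ.pow_eq_one hζ1 (((c₀ : ZMod q).val : ℕ) : ℤ)
    (hasRed_jq (A := A))
  rw [zpow_natCast] at h1
  have h2 := eM_j2_sub_j0 hq hqM hA hζ c₀ eM heM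
  have h3 : eM.hom (algebraMap Qb (FN (M' * q * q)) ((ζ : Qb) - 1)⁻¹ * (j2 M' q - j0 M' q)) =
      (twist (ζ ^ (c₀ : ZMod q).val) (jqModC Qb) - jqModC Qb) / HahnSeries.C ((ζ : Qb) - 1) := by
    rw [map_mul, eM.const, h2, map_inv₀, div_eq_mul_inv, mul_comm]
    rfl
  rw [← h3] at h1
  have hc : (HahnSeries.C ((((c₀ : ZMod q).val : ℕ) : ℤ) : kA A) : LaurentSeries (kA A)) ≠ 0 := by
    rw [Ne, map_eq_zero_iff _ HahnSeries.C_injective, Int.cast_natCast,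
      CharP.cast_eq_zero_iff (kA A) q]
    intro hdvd
    have h4 : ((c₀ : ZMod q).val : ZMod q) = 0 := (ZMod.natCast_eq_zero_iff _ _).2 hdvd
    rw [ZMod.natCast_val, ZMod.cast_id] at h4
    have : Fact q.Prime := ⟨hq⟩
    exact c₀.ne_zero h4
  have h5 := vOf_eq_one_of_hasRed A eM h1 (mul_ne_zero hc theta_jb_ne)
  rw [map_mul, vOf_algebraMap, ← vL_apply, map_inv₀] at h5
  have h6 : vL A ((ζ : Qb) - 1) ≠ 0 := (Valuation.ne_zero_iff _).2 ha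
  rw [inv_mul_eq_one₀ h6] at h5
  exact h5.symm

theorem um (hq : q.Prime) (hqM : ¬ q ∣ M') (hA : A.LiesOverPrime q) {ζ : Qbˣ}
    (hζ : IsPrimitiveRoot ζ q) (c₀ : (ZMod q)ˣ) (eM : GEmb (FN (M' * q * q)))
    (heM : ∀ z, eM.hom z = eMidC M' q ζ c₀ z) :
    ∃ δ ∈ FK A (M' * q * q), δ ≠ 0 ∧ vOf A eM δ ^ (q - 1) = vL A (q : Qb) := by
  have h1 := vm_delta hq hqM hA hζ c₀ eM heM
  have ha : (ζ : Qb) - 1 ≠ 0 := by
    rw [sub_ne_zero]
    intro h2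
    exact hζ.ne_one hq.one_lt (Units.ext h2)
  refine ⟨j2 M' q - j0 M' q, sub_mem j2_mem j0_mem, ?_, ?_⟩
  · intro h0
    rw [h0, map_zero] at h1
    exact (Valuation.ne_zero_iff _).2 ha h1.symm
  · rw [h1]
    exact vL_lam_pow hq hA hζ

end Fermat.Agent.CAR.NRM.Inst
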