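import Fermat.Agent.CAR.NRM.Inst.EMG
import Fermat.Agent.CAR.NRM.Inst.OpsR
import Fermat.Agent.CAR.NRM.Inst.Disc
import Fermat.Agent.CAR.NRM.Inst.Unif
import Fermat.Agent.CAR.NRM.Inst.Idem
import Fermat.Agent.CAR.NRM.Inst.Base
import Fermat.Agent.CAR.NRM.Inst.NP
import Fermat.Agent.CAR.NRM.Inst.Transfer

/-!
# CAR / NRM / Inst / Main : the concrete datum satisfies all the hypotheses of block [NRM]; concrete export
-/

set_option autoImplicit false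

open ModularCurve

noncomputable section

namespace Fermat.Agent.CAR.NRM.Inst

open Fermat.Agent.S24 Fermat.Agent.S28 Fermat.Agent.GR Fermat.Agent.GR.HeckeField
  Fermat.Agent.TOR.GB Fermat.Agent.GAL Fermat.Agent.GAL.KL Fermat.Agent.GAL.KLC
  Fermat.Agent.TOR.T1 Fermat.Agent.CAR.FQ2E Fermat.Agent.CAR.FQ2V

variable {A : ValuationSubring Qb} {M' q : ℕ} [NeZero M'] [NeZero q]

theorem ops (hq : q.Prime) (hqM : ¬ q ∣ M') (hA : A.LiesOverPrime q) {ζ : Qbˣ}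
    (hζ : IsPrimitiveRoot ζ q) (eMs : (ZMod q)ˣ → GEmb (FN (M' * q * q)))
    (heM : ∀ c z, (eMs c).hom z = eMidC M' q ζ c z) (c₀ : (ZMod q)ˣ) :
    (dat A M' q (eMs c₀)).Ops q where
  P1K := fun _ hz => P1_mem_FK hq hqM hz
  P2K := fun _ hz => P2_mem_FK hq hqM hz
  P1c := P1_algebraMap hq hqM
  P2c := P2_algebraMap hq hqM
  vP1o := fun _ hz => vP1o hq hqM hA hζ eMs heM c₀ hz
  vP1m := fun _ hz => vP1m hq hqM hA hζ eMs heM c₀ hz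
  vP1z := fun z _ => vP1z hq hqM hA z
  vP2o := fun z _ => vP2o hq hqM hA z
  vP2m := fun _ hz => vP2m hq hqM hA hζ eMs heM c₀ hz
  vP2z := fun _ hz => vP2z hq hqM hA hζ eMs heM c₀ hz
  rP1 := fun _ hz _ _ _ h => rP1 hq hqM hA hζ c₀ (eMs c₀) (heM c₀) hz h
  rP2 := fun _ hz _ _ _ h => rP2 hq hqM hA hζ c₀ (eMs c₀) (heM c₀) hz h

theorem disc (hq : q.Prime) (hqM : ¬ q ∣ M') (hA : A.LiesOverPrime q) {ζ : Qbˣ}
    (hζ : IsPrimitiveRoot ζ q) (eMs : (ZMod q)ˣ → GEmb (FN (M' * q * q)))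
    (heM : ∀ c z, (eMs c).hom z = eMidC M' q ζ c z) (c₀ : (ZMod q)ˣ) :
    (dat A M' q (eMs c₀)).Disc q where
  q_lt := vL_q_lt hA
  q_ne := vL_q_ne hq
  dK := fun _ ha ha0 => dK hq hA ha ha0
  dO := fun _ hz hz0 => dO hq hA _ hz hz0
  dm := fun _ hz hz0 => dm hq hqM hA hζ eMs heM c₀ hz hz0
  dz := fun _ hz hz0 => dz hq hqM hA hz hz0
  um := um hq hqM hA hζ c₀ (eMs c₀) (heM c₀)

/-- **all the hypotheses of [NRM] hold for the concrete datum.** -/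
theorem all (hq : q.Prime) (hqM : ¬ q ∣ M') (hA : A.LiesOverPrime q) {ζ : Qbˣ}
    (hζ : IsPrimitiveRoot ζ q) (eMs : (ZMod q)ˣ → GEmb (FN (M' * q * q)))
    (heM : ∀ c z, (eMs c).hom z = eMidC M' q ζ c z) (c₀ : (ZMod q)ˣ) :
    (dat A M' q (eMs c₀)).All q where
  base := base hq hA _
  ops := ops hq hqM hA hζ eMs heM c₀
  disc := disc hq hqM hA hζ eMs heM c₀
  idem := idem hq hqM hA hζ c₀ (eMs c₀) (heM c₀)
  transfer := transfer_of_approx (base hq hA _) (ops hq hqM hA hζ eMs heM c₀)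
    (approx_of_idem (idem hq hqM hA hζ c₀ (eMs c₀) (heM c₀)))

/-- **Concrete export of [NRM].**  `h ∈ F_K^×` whose two norms to level `M' q` are `n`-th powers (over `ℚ̄`). -/
theorem main [IsAlgClosed (kA A)] (hq : q.Prime) (hqM : ¬ q ∣ M') (hA : A.LiesOverPrime q) {ζ : Qbˣ}
    (hζ : IsPrimitiveRoot ζ q) (eMs : (ZMod q)ˣ → GEmb (FN (M' * q * q)))
    (heM : ∀ c z, (eMs c).hom z = eMidC M' q ζ c z) (c₀ : (ZMod q)ˣ) {n : ℕ} (hn : 0 < n)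
    (hqn : Nat.Coprime q n) {h : FN (M' * q * q)} (hK : h ∈ FK A (M' * q * q)) (h0 : h ≠ 0)
    (hy₁ : ∃ y : FN (M' * q), y ^ n = N1 M' q h) (hy₂ : ∃ y : FN (M' * q), y ^ n = N2 M' q h) :
    ∃ a ∈ KK A, a ≠ 0 ∧ ∃ z ∈ FK A (M' * q * q), z ≠ 0 ∧ ∃ (ζ' : FN (M' * q * q)) (A' B' : kA A),
      (dat A M' q (eMs c₀)).Out q n
        (h ^ ((q + 1) * (q - 1)) * algebraMap Qb (FN (M' * q * q)) a * z ^ n) ζ' A' B' :=
  NRM.main (all hq hqM hA hζ eMs heM c₀) hq.two_le hn hqn hK h0 (np_P1 hq hqM _ hn hK h0 hy₁)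
    (np_P2 hq hqM _ hn hK h0 hy₂)

end Fermat.Agent.CAR.NRM.Inst
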