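import Fermat.Agent.CAR.NRM.Inst.Series
import Fermat.Agent.CAR.NRM.Inst.Table

/-!
# CAR / NRM / Inst / OpsV (package NRM-I5): the valuations of `P1 z`, `P2 z` for `z ∈ F_K`

Everything follows from Table.lean + Series.lean.  To speak of `vOf` of `eMidC ζ c z` for the other `c` use the hypothesis `eMs` (a `GEmb` for every `c`; supplied by FQ2C);
`vOf A (eMs c) z = vOf A (eMs c₀) z` for `z ∈ F_K` by `exists_galS_eMidC` + `vOf_eq_of_galS`;  `Fintype.card (ZMod q)ˣ = q - 1` (`ZMod.card_units`).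
For the twisted factors use `GEmb.tw` (`(e.tw ξ hn hξ).hom z = twist ξ (e.hom z)`) and `vOf_eq_of_twist`.
-/

set_option autoImplicit false

open ModularCurve

noncomputable section

namespace Fermat.Agent.CAR.NRM.Inst

open Fermat.Agent.S24 Fermat.Agent.S28 Fermat.Agent.GR Fermat.Agent.GR.HeckeField
  Fermat.Agent.TOR.GB Fermat.Agent.GAL Fermat.Agent.GAL.KL Fermat.Agent.GAL.KLC
  Fermat.Agent.TOR.T1 Fermat.Agent.CAR.FQ2E Fermat.Agent.CAR.FQ2V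

variable {A : ValuationSubring Qb} {M' q : ℕ} [NeZero M'] [NeZero q]

/-- all the middle valuations coincide on `F_K`. -/
theorem vOf_mid_eq (hq : q.Prime) (hqM : ¬ q ∣ M') (hA : A.LiesOverPrime q) {ζ : Qbˣ}
    (hζ : IsPrimitiveRoot ζ q) (eMs : (ZMod q)ˣ → GEmb (FN (M' * q * q)))
    (heM : ∀ c z, (eMs c).hom z = eMidC M' q ζ c z) (c₀ c : (ZMod q)ˣ) {z : FN (M' * q * q)}
    (hz : z ∈ FK A (M' * q * q)) : vOf A (eMs c) z = vOf A (eMs c₀) z := by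
  obtain ⟨σ, hσ, h⟩ := exists_galS_eMidC hq hqM hA hζ c₀ c hz
  exact vOf_eq_of_galS hσ (e := eMs c₀) (e' := eMs c) (z := z) (z' := z) (by rw [heM, heM, h])

/-- the product of the middle valuations. -/
theorem OpsV_prod_mid (hq : q.Prime) (hqM : ¬ q ∣ M') (hA : A.LiesOverPrime q) {ζ : Qbˣ}
    (hζ : IsPrimitiveRoot ζ q) (eMs : (ZMod q)ˣ → GEmb (FN (M' * q * q)))
    (heM : ∀ c z, (eMs c).hom z = eMidC M' q ζ c z) (c₀ : (ZMod q)ˣ) {z : FN (M' * q * q)}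
    (hz : z ∈ FK A (M' * q * q)) (e' : (ZMod q)ˣ → GEmb (FN (M' * q * q)))
    (he' : ∀ c, vOf A (e' c) z = vOf A (eMs c) z) : letI : Fact q.Prime := ⟨hq⟩
    ∏ c : (ZMod q)ˣ, vOf A (e' c) z = vOf A (eMs c₀) z ^ (q - 1) := by
  have : Fact q.Prime := ⟨hq⟩
  rw [Finset.prod_congr rfl fun c _ => (he' c).trans (vOf_mid_eq hq hqM hA hζ eMs heM c₀ c hz),
    Finset.prod_const, Finset.card_univ, ZMod.card_units]

/-- the twisted middle embeddings. -/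
def OpsV_eTw {ζ : Qbˣ} (hζ : IsPrimitiveRoot ζ q) (eMs : (ZMod q)ˣ → GEmb (FN (M' * q * q)))
    (c : (ZMod q)ˣ) : GEmb (FN (M' * q * q)) :=
  (eMs c).tw (zpw q ζ c)⁻¹ (NeZero.ne q) (by rw [inv_pow, zpw_pow hζ, inv_one])

omit [NeZero M'] in
theorem OpsV_vOf_eTw (hq : q.Prime) (hA : A.LiesOverPrime q) {ζ : Qbˣ}
    (hζ : IsPrimitiveRoot ζ q) (eMs : (ZMod q)ˣ → GEmb (FN (M' * q * q))) (c : (ZMod q)ˣ)
    (z : FN (M' * q * q)) : vOf A (OpsV_eTw hζ eMs c) z = vOf A (eMs c) z :=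
  vOf_eq_of_twist hq hA (ξ := (zpw q ζ c)⁻¹) (by rw [inv_pow, zpw_pow hζ, inv_one])
    (e := eMs c) (e' := OpsV_eTw hζ eMs c) (z := z) (z' := z) rfl

section

variable (hq : q.Prime) (hqM : ¬ q ∣ M') (hA : A.LiesOverPrime q) {ζ : Qbˣ}
  (hζ : IsPrimitiveRoot ζ q) (eMs : (ZMod q)ˣ → GEmb (FN (M' * q * q)))
  (heM : ∀ c z, (eMs c).hom z = eMidC M' q ζ c z) (c₀ : (ZMod q)ˣ) {z : FN (M' * q * q)}
  (hz : z ∈ FK A (M' * q * q))

include hq hqM hA hζ heM hz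

theorem vP1o : vOf A (eO M' q) (P1 M' q z) = vOf A (eO M' q) z * vOf A (eMs c₀) z ^ (q - 1) := by
  have : Fact q.Prime := ⟨hq⟩
  rw [← OpsV_prod_mid hq hqM hA hζ eMs heM c₀ hz eMs fun _ => rfl]
  refine vOf_eq_mul_prod Finset.univ (e := eO M' q) (e₀ := eO M' q) eMs (fun _ => z) ?_
  simp only [heM]
  exact coe_P1 hq hqM hζ z

theorem vP1m : vOf A (eMs c₀) (P1 M' q z) = vOf A (eO M' q) z * vOf A (eMs c₀) z ^ (q - 1) := by
  have : Fact q.Prime := ⟨hq⟩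
  rw [← OpsV_prod_mid hq hqM hA hζ eMs heM c₀ hz eMs fun _ => rfl]
  refine vOf_eq_mul_prod Finset.univ (e := eMs c₀) (e₀ := eO M' q) eMs (fun _ => z) ?_
  simp only [heM]
  exact eMidC_P1 hq hqM hζ c₀ z

theorem vP2z : vOf A (eZ M' q) (P2 M' q z) = vOf A (eZ M' q) z * vOf A (eMs c₀) z ^ (q - 1) := by
  have : Fact q.Prime := ⟨hq⟩
  rw [← OpsV_prod_mid hq hqM hA hζ eMs heM c₀ hz (OpsV_eTw hζ eMs)
    fun c => OpsV_vOf_eTw hq hA hζ eMs c z]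
  refine vOf_eq_mul_prod Finset.univ (e := eZ M' q) (e₀ := eZ M' q) (OpsV_eTw hζ eMs)
    (fun _ => z) ?_
  have h1 : ∀ c, (OpsV_eTw hζ eMs c).hom z = twist (zpw q ζ c)⁻¹ (eMidC M' q ζ c z) := by
    intro c
    rw [← heM]
    rfl
  simp only [h1]
  exact coe_wqq_P2 hq hqM hζ z

theorem vP2m : vOf A (eMs c₀) (P2 M' q z) = vOf A (eZ M' q) z * vOf A (eMs c₀) z ^ (q - 1) := by
  have : Fact q.Prime := ⟨hq⟩
  rw [← vP2z hq hqM hA hζ eMs heM c₀ hz]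
  refine vOf_eq_of_twist hq hA (ξ := zpw q ζ c₀) (zpw_pow hζ c₀) (e := eZ M' q) (e' := eMs c₀)
    (z := P2 M' q z) (z' := P2 M' q z) ?_
  rw [heM, eMidC_P2 hq hqM hζ c₀ z, ← coe_wqq_P2 hq hqM hζ z]
  rfl

end

theorem vP1z (hq : q.Prime) (hqM : ¬ q ∣ M') (hA : A.LiesOverPrime q) (z : FN (M' * q * q)) :
    vOf A (eZ M' q) (P1 M' q z) = vOf A (eZ M' q) z ^ q :=
  vOf_eq_of_NmL hq hA (e := eZ M' q) (e' := eZ M' q) (z := z) (z' := P1 M' q z)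
    (coe_wqq_P1 hq hqM z)

theorem vP2o (hq : q.Prime) (hqM : ¬ q ∣ M') (hA : A.LiesOverPrime q) (z : FN (M' * q * q)) :
    vOf A (eO M' q) (P2 M' q z) = vOf A (eO M' q) z ^ q :=
  vOf_eq_of_NmL hq hA (e := eO M' q) (e' := eO M' q) (z := z) (z' := P2 M' q z)
    (coe_P2 hq hqM z)

end Fermat.Agent.CAR.NRM.Inst
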